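/-
S56 / F / K / Defs  (block K of FLAT-Irr, owner helper53).

Pure `S55/Places` computations: totally ramified extensions of an unramified base, Kummer
extensions of the tame field `K0(π)`, `π ^ (p^2-1) = -p`, and the transitivity of the different
(easy half).  Consumer: block C (`NoLevel z 2`, `NoLevel z (p+1)`), black box: `RamBound`
(= helper6's `Ram.ram_bound`).

Notation: `|.| = nrm p`, `D = Dq p`, `I = Iq p`, `[W0 : W1] = (W1.subgroupOf W0).index`,
`Fx W = S55.Places.Fix W` (renamed on opening: the bare name clashes with a root declaration).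
-/
import Fermat.Agent.S55.Places.UnramQuot
import Fermat.Agent.S55.Places.Cyclo
import Fermat.Agent.S55.Places.PthPower
import Fermat.Agent.S55.Places.Ring
import Fermat.Agent.S55.Places.Value

set_option autoImplicit false

noncomputable section

namespace Fermat.Agent.S56.F.K

open Fermat.Agent.S55.Places hiding Fix
open Fermat.Agent.S55.Places renaming Fix → Fx
open Polynomial
open scoped IntermediateField

variable (p : ℕ) [Fact p.Prime]

/-- the nonzero elements of `Fix W` have norm in `p ^ ℤ` (`Fix W` is unramified). -/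
def UnramNorm (W : Subgroup GQ) : Prop :=
  ∀ c ∈ Fx W, c ≠ 0 → ∃ k : ℤ, nrm p c = (p : ℝ) ^ k

/-- abstract form of the ramification bound (R'') (helper6's `Ram.ram_bound`) for the kernel `N`
of the Galois action on a flat `E` killed by `p`: `v(different) ≤ p/(p-1)`. -/
def RamBound (N : Subgroup GQ) : Prop :=
  ∀ D0 DM : Subgroup GQ, IsOpenIn (Dq p) D0 → Iq p ≤ D0 → (∀ g, g ∈ DM ↔ g ∈ D0 ∧ g ∈ N) →
    (∀ g ∈ D0, ∃ i ∈ Iq p, i⁻¹ * g ∈ DM) → ∀ ϖ : Qbar, ϖ ∈ Fx DM → ϖ ≠ 0 → nrm p ϖ < 1 →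
    (∀ x ∈ Fx DM, x ≠ 0 → ∃ n : ℤ, nrm p x = nrm p ϖ ^ n) →
    nrm p (p : Qbar) ^ p ≤ nrm p (aeval ϖ (derivative (minpoly (Fx D0) ϖ))) ^ (p - 1)

/-- the stabiliser of `a` in `W`. -/
def Stb (W : Subgroup GQ) (a : Qbar) : Subgroup GQ := W ⊓ (ℚ⟮a⟯ : NF).fixingSubgroup

variable {p}

theorem mem_Stb {W : Subgroup GQ} {a : Qbar} {g : GQ} : g ∈ Stb W a ↔ g ∈ W ∧ g a = a := by
  unfold Stb
  rw [Subgroup.mem_inf, Roots_mem_fixingSubgroup_adjoin]
  simp

theorem Stb_le (W : Subgroup GQ) (a : Qbar) : Stb W a ≤ W := inf_le_left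

theorem isOpenIn_Stb (W : Subgroup GQ) (a : Qbar) : IsOpenIn W (Stb W a) := by
  have := cyclo_finiteDimensional_adjoin a
  exact isOpenIn_inf_fixingSubgroup W _

theorem mem_Fix_Stb (W : Subgroup GQ) (a : Qbar) : a ∈ Fx (Stb W a) := by
  rw [mem_Fix_iff]
  exact fun g hg => (mem_Stb.1 hg).2

end Fermat.Agent.S56.F.K

end
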