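/-
S56 / F / K / UltraA : elementary ultrametric estimates for `nrm p` on `Qbar` (no Galois theory).
Task S56/F-K-UltraA.
-/
import Fermat.Agent.S56.F.K.Defs

set_option autoImplicit false

noncomputable section

namespace Fermat.Agent.S56.F.K

open Fermat.Agent.S55.Places hiding Fix
open Fermat.Agent.S55.Places renaming Fix → Fx
open Polynomial
open scoped IntermediateField

variable {p : ℕ} [Fact p.Prime]

/-- auxiliary induction for (U1). -/
theorem UltraA_sum_aux {ι : Type*} (s : Finset ι) (f : ι → Qbar)
    (hd : ∀ i ∈ s, ∀ j ∈ s, i ≠ j → f i ≠ 0 → nrm p (f i) ≠ nrm p (f j)) :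
    (∀ i ∈ s, nrm p (f i) ≤ nrm p (∑ i ∈ s, f i)) ∧
      ((∑ i ∈ s, f i = 0) ∨ ∃ i ∈ s, f i ≠ 0 ∧ nrm p (∑ i ∈ s, f i) = nrm p (f i)) := by
  classical
  induction s using Finset.induction_on with
  | empty => exact ⟨by simp, Or.inl (by simp)⟩
  | insert a s ha ih =>
    obtain ⟨ihA, ihB⟩ := ih (fun i hi j hj =>
      hd i (Finset.mem_insert_of_mem hi) j (Finset.mem_insert_of_mem hj))
    rw [Finset.sum_insert ha]
    by_cases hfa : f a = 0
    · rw [hfa, zero_add]
      refine ⟨?_, ?_⟩
      · intro i hi
        rcases Finset.mem_insert.mp hi with rfl | hi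
        · rw [hfa, nrm_zero]; exact nrm_nonneg p _
        · exact ihA i hi
      · rcases ihB with h | ⟨i, hi, h1, h2⟩
        · exact Or.inl h
        · exact Or.inr ⟨i, Finset.mem_insert_of_mem hi, h1, h2⟩
    · rcases ihB with h | ⟨i, hi, h1, h2⟩
      · rw [h, add_zero]
        refine ⟨?_, Or.inr ⟨a, Finset.mem_insert_self _ _, hfa, rfl⟩⟩
        intro j hj
        rcases Finset.mem_insert.mp hj with rfl | hj
        · exact le_rfl
        · have := ihA j hj
          rw [h, nrm_zero] at this
          exact this.trans (nrm_nonneg p _)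
      · have hne : nrm p (f a) ≠ nrm p (∑ i ∈ s, f i) := by
          rw [h2]
          exact hd a (Finset.mem_insert_self _ _) i (Finset.mem_insert_of_mem hi)
            (by rintro rfl; exact ha hi) hfa
        have hmax := nrm_add_eq_max_of_ne p hne
        rw [hmax]
        refine ⟨?_, Or.inr ?_⟩
        · intro j hj
          rcases Finset.mem_insert.mp hj with rfl | hj
          · exact le_max_left _ _
          · exact (ihA j hj).trans (le_max_right _ _)
        · rcases le_total (nrm p (f a)) (nrm p (∑ i ∈ s, f i)) with hle | hle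
          · exact ⟨i, Finset.mem_insert_of_mem hi, h1, by rw [max_eq_right hle, h2]⟩
          · exact ⟨a, Finset.mem_insert_self _ _, hfa, by rw [max_eq_left hle]⟩

/-- (U1) a finite sum whose nonzero terms have pairwise distinct norms dominates each term.
PROOF: induction on `s`, proving at the same time: the sum is `0` or has the norm of a nonzero
term; use `nrm_add_eq_max_of_ne`. -/
theorem le_nrm_sum_of_ne {ι : Type*} (s : Finset ι) (f : ι → Qbar)
    (h : ∀ i ∈ s, ∀ j ∈ s, i ≠ j → f i ≠ 0 → nrm p (f i) ≠ nrm p (f j)) {i : ι} (hi : i ∈ s) :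
    nrm p (f i) ≤ nrm p (∑ j ∈ s, f j) := by
  exact (UltraA_sum_aux s f h).1 i hi

/-- (U2) coefficients of `∏ (X - a)`, `|a| ≤ 1`, are integral.  PROOF: multiset induction,
`coeff_mul_X_sub_C` / `coeff_X_sub_C_mul`-style formulas, `nrm_sub_le_max`. -/
theorem nrm_coeff_prod_X_sub_C_le (s : Multiset Qbar) (h : ∀ a ∈ s, nrm p a ≤ 1) (i : ℕ) :
    nrm p ((s.map fun a => X - C a).prod.coeff i) ≤ 1 := by
  induction s using Multiset.induction_on generalizing i with
  | empty =>
    simp only [Multiset.map_zero, Multiset.prod_zero, coeff_one]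
    split_ifs
    · rw [nrm_one]
    · rw [nrm_zero]; exact zero_le_one
  | cons a s ih =>
    have iha := ih (fun b hb => h b (Multiset.mem_cons_of_mem hb))
    have ha := h a (Multiset.mem_cons_self a s)
    rw [Multiset.map_cons, Multiset.prod_cons]
    cases i with
    | zero =>
      rw [mul_coeff_zero, nrm_mul]
      have h0 : (X - C a : Qbar[X]).coeff 0 = -a := by simp
      rw [h0, nrm_neg]
      exact mul_le_one₀ ha (nrm_nonneg p _) (iha 0)
    | succ i =>
      rw [coeff_X_sub_C_mul]
      refine (nrm_sub_le_max p _ _).trans (max_le (iha i) ?_)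
      rw [nrm_mul]
      have h1 := iha (i + 1)
      exact mul_le_one₀ ha (nrm_nonneg p _) h1

end Fermat.Agent.S56.F.K

end
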