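/-
S56 / F / K / DerA : roots and coefficients of minimal polynomials over `Fix W`, `W ≤ D`.
Task S56/F-K-DerA.
-/
import Fermat.Agent.S56.F.K.UltraA

set_option autoImplicit false

noncomputable section

namespace Fermat.Agent.S56.F.K

open Fermat.Agent.S55.Places hiding Fix
open Fermat.Agent.S55.Places renaming Fix → Fx
open Polynomial
open scoped IntermediateField

variable {p : ℕ} [Fact p.Prime]

/-- every root of the minimal polynomial over `Fix W0`, `W0 ≤ D`, has the same norm.
PROOF: `exists_mem_map_eq_of_isRoot`, `nrm_map_of_mem_Dq`. -/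
theorem nrm_root_minpoly {W0 : Subgroup GQ} (hW0 : W0 ≤ Dq p) {y y' : Qbar}
    (h : aeval y' (minpoly (Fx W0) y) = 0) : nrm p y' = nrm p y := by
  obtain ⟨g, hg, hgy⟩ := exists_mem_map_eq_of_isRoot W0 y y' h
  rw [← hgy, nrm_map_of_mem_Dq p (hW0 hg)]

/-- the minimal polynomial has integral coefficients.  PROOF: it splits in `Qbar`
(`IsAlgClosed.splits`), `G.map = ∏_{a ∈ roots} (X - C a)` (monic;
`Polynomial.Splits.eq_prod_roots_of_monic` or `eq_prod_roots_of_monic_of_splits_id`), roots have norm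
`|x| ≤ 1` by `nrm_root_minpoly`; `nrm_coeff_prod_X_sub_C_le`. -/
theorem nrm_coeff_minpoly_le {W : Subgroup GQ} (hW : W ≤ Dq p) {x : Qbar} (hx : nrm p x ≤ 1)
    (i : ℕ) : nrm p (((minpoly (Fx W) x).coeff i : Fx W) : Qbar) ≤ 1 := by
  have hAC := isAlgClosureQbar
  have hint : IsIntegral (Fx W) x :=
    ((Algebra.IsAlgebraic.isAlgebraic (R := ℚ) x).isIntegral).tower_top
  have hmon : (minpoly (Fx W) x).Monic := minpoly.monic hint
  have hmon' : ((minpoly (Fx W) x).map (algebraMap (Fx W) Qbar)).Monic := hmon.map _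
  have hsp : ((minpoly (Fx W) x).map (algebraMap (Fx W) Qbar)).Splits := IsAlgClosed.splits _
  have hprod := hsp.eq_prod_roots_of_monic hmon'
  have hc : (((minpoly (Fx W) x).coeff i : Fx W) : Qbar)
      = ((minpoly (Fx W) x).map (algebraMap (Fx W) Qbar)).coeff i := by
    rw [coeff_map]
    rfl
  rw [hc, hprod]
  refine nrm_coeff_prod_X_sub_C_le _ (fun a ha => ?_) i
  have h0 : aeval a (minpoly (Fx W) x) = 0 := by
    have := (mem_roots hmon'.ne_zero).1 ha
    rwa [IsRoot.def, eval_map_algebraMap] at this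
  rw [nrm_root_minpoly hW h0]
  exact hx

end Fermat.Agent.S56.F.K

end
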