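/-
S56 / F / K / DerB : upper bound for `|G'(y)|`, `G = minpoly (Fix W0) y`, from a set `T` of conjugates
close to `y`.   Task S56/F-K-DerB.
-/
import Fermat.Agent.S56.F.K.DerA

set_option autoImplicit false

noncomputable section

namespace Fermat.Agent.S56.F.K

open Fermat.Agent.S55.Places hiding Fix
open Fermat.Agent.S55.Places renaming Fix → Fx
open Polynomial
open scoped IntermediateField

variable {p : ℕ} [Fact p.Prime]

/-- norm of a product over a multiset. -/
theorem DerB_nrm_multiset_prod_le (f : Qbar → Qbar) (c : ℝ) (M : Multiset Qbar)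
    (h : ∀ a ∈ M, nrm p (f a) ≤ c) : nrm p (M.map f).prod ≤ c ^ Multiset.card M := by
  induction M using Multiset.induction_on with
  | empty => simp
  | cons a M ih =>
    rw [Multiset.map_cons, Multiset.prod_cons, Multiset.card_cons, nrm_mul, pow_succ']
    have ha := h a (Multiset.mem_cons_self a M)
    exact mul_le_mul ha (ih fun b hb => h b (Multiset.mem_cons_of_mem hb)) (nrm_nonneg p _)
      ((nrm_nonneg p _).trans ha)

/-- (DER).  PROOF: `Polynomial.aeval_root_derivative_of_splits`:
`G'(y) = ∏_{y' ∈ (G.aroots Qbar).erase y} (y - y')`.  `T.val ≤ (aroots).erase y` (`T` has no duplicates,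
its elements are roots `≠ y`: `Multiset.le_iff_count` / `Finset.val_le_iff_val_subset`), so
`erase = T.val + S'`, `card S' = natDegree G - 1 - #T ≥ n - 1 - #T`; factors in `T` are `≤ r`, the other
ones `≤ max |y| |y'| = |y| ≤ 1` (`nrm_root_minpoly`). -/
theorem nrm_derivative_le {W0 : Subgroup GQ} (hW0 : W0 ≤ Dq p) {y : Qbar} (hy1 : nrm p y ≤ 1)
    {n : ℕ} (hn : n ≤ (minpoly (Fx W0) y).natDegree) (T : Finset Qbar) {r : ℝ}
    (hT : ∀ y' ∈ T, y' ≠ y ∧ aeval y' (minpoly (Fx W0) y) = 0 ∧ nrm p (y - y') ≤ r) :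
    nrm p (aeval y (derivative (minpoly (Fx W0) y))) ≤ r ^ T.card * nrm p y ^ (n - 1 - T.card) := by
  classical
  have hint : IsIntegral (Fx W0) y :=
    ((AlgebraicClosure.isAlgebraic ℚ).isAlgebraic y).isIntegral.tower_top
  obtain ⟨g, hg⟩ : ∃ g : Qbar[X], g = (minpoly (Fx W0) y).map (algebraMap (Fx W0) Qbar) :=
    ⟨_, rfl⟩
  have hm : g.Monic := hg ▸ (minpoly.monic hint).map _
  have hs : g.Splits := IsAlgClosed.splits g
  have hroot : ∀ a : Qbar, a ∈ g.roots ↔ aeval a (minpoly (Fx W0) y) = 0 := by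
    intro a
    rw [mem_roots hm.ne_zero, IsRoot.def, hg, eval_map_algebraMap]
  have hy : y ∈ g.roots := (hroot y).2 (minpoly.aeval _ _)
  have e1 : aeval y (derivative (minpoly (Fx W0) y)) = eval y (derivative g) := by
    rw [hg, derivative_map, eval_map_algebraMap]
  have hle : T.val ≤ g.roots.erase y := by
    rw [Multiset.le_iff_subset T.nodup]
    intro a ha
    have h1 := hT a ha
    exact (Multiset.mem_erase_of_ne h1.1).2 ((hroot a).2 h1.2.1)
  have hsplit : T.val + (g.roots.erase y - T.val) = g.roots.erase y := add_tsub_cancel_of_le hle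
  have hcard : n - 1 - T.card ≤ Multiset.card (g.roots.erase y - T.val) := by
    rw [Multiset.card_sub hle, Multiset.card_erase_of_mem hy, ← hs.natDegree_eq_card_roots, hg,
      natDegree_map, Finset.card_val]
    have : n - 1 ≤ (minpoly (Fx W0) y).natDegree.pred := by
      rw [Nat.pred_eq_sub_one]
      omega
    omega
  rw [e1, hs.eval_root_derivative hm hy, ← hsplit, Multiset.map_add, Multiset.prod_add, nrm_mul]
  have h1 : nrm p (T.val.map (y - ·)).prod ≤ r ^ T.card :=
    DerB_nrm_multiset_prod_le (y - ·) r T.val fun a ha => (hT a ha).2.2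
  have h2 : nrm p ((g.roots.erase y - T.val).map (y - ·)).prod ≤ nrm p y ^ (n - 1 - T.card) := by
    refine (DerB_nrm_multiset_prod_le (y - ·) (nrm p y) _ fun a ha => ?_).trans
      (pow_le_pow_of_le_one (nrm_nonneg p y) hy1 hcard)
    have ha' : a ∈ g.roots :=
      Multiset.mem_of_mem_erase (Multiset.mem_of_le (Multiset.sub_le_self _ _) ha)
    have h3 : nrm p a = nrm p y := nrm_root_minpoly hW0 ((hroot a).1 ha')
    exact (nrm_sub_le_max p y a).trans (by rw [h3, max_self])
  exact mul_le_mul h1 h2 (nrm_nonneg p _) ((nrm_nonneg p _).trans h1)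

end Fermat.Agent.S56.F.K

end
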