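/-
S56 / F / K / IndexA : norms and indices.   `[W0 : W1] = (W1.subgroupOf W0).index`.
Task S56/F-K-IndexA.
-/
import Fermat.Agent.S56.F.K.Defs

set_option autoImplicit false

noncomputable section

namespace Fermat.Agent.S56.F.K

open Fermat.Agent.S55.Places hiding Fix
open Fermat.Agent.S55.Places renaming Fix → Fx
open Polynomial
open scoped IntermediateField

variable {p : ℕ} [Fact p.Prime]

/-- (NORM) `|z|^[W0:W1] ∈ p^ℤ` for `z ∈ Fix W1`, `Fix W0` unramified.
PROOF: `IsOpenIn.exists_charpoly`: `f.map = ∏_{g ∈ s} (X - C (g z))`, `f` over `Fix W0`; its constant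
coefficient lies in `Fix W0`, is `± ∏ g z`, of norm `|z|^card s` (`nrm_map_of_mem_Dq`), nonzero. -/
theorem nrm_pow_idx {W0 W1 : Subgroup GQ} (hD : W0 ≤ Dq p) (hU : UnramNorm p W0)
    (h : IsOpenIn W0 W1) {z : Qbar} (hz : z ∈ Fx W1) (h0 : z ≠ 0) :
    ∃ k : ℤ, nrm p z ^ (W1.subgroupOf W0).index = (p : ℝ) ^ k := by
  obtain ⟨s, hs, hcard, -, f, hf⟩ := h.exists_charpoly hz
  have hc : ((f.coeff 0 : Fx W0) : Qbar) = (s.map fun g => - (g z)).prod := by
    have h1 : (f.map (algebraMap (Fx W0) Qbar)).coeff 0 = ((f.coeff 0 : Fx W0) : Qbar) := by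
      rw [Polynomial.coeff_map]; rfl
    rw [← h1, hf, Polynomial.coeff_zero_eq_eval_zero, Polynomial.eval_multiset_prod,
      Multiset.map_map]
    congr 1
    apply Multiset.map_congr rfl
    intro g _
    simp
  have hn : ∀ t : Multiset GQ, (∀ g ∈ t, g ∈ Dq p) →
      nrm p (t.map fun g => - (g z)).prod = nrm p z ^ (Multiset.card t) := by
    intro t
    induction t using Multiset.induction_on with
    | empty => intro _; simp
    | cons a t ih =>
      intro ht
      rw [Multiset.map_cons, Multiset.prod_cons, nrm_mul, nrm_neg,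
        nrm_map_of_mem_Dq p (ht a (Multiset.mem_cons_self a t)),
        ih (fun g hg => ht g (Multiset.mem_cons_of_mem hg)), Multiset.card_cons, pow_succ, mul_comm]
  have hn' := hn s (fun g hg => hD (hs g hg))
  rw [← hc, hcard] at hn'
  have hne : ((f.coeff 0 : Fx W0) : Qbar) ≠ 0 := by
    rw [← nrm_pos_iff p, hn']
    exact pow_pos ((nrm_pos_iff p).2 h0) _
  obtain ⟨k, hk⟩ := hU _ (f.coeff 0).2 hne
  exact ⟨k, by rw [← hn', hk]⟩

/-- ramification index divides the degree.  PROOF: `nrm_pow_idx`: `|y|^idx = p^k`; raise to the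
`n`-th power: `p^(-idx) = p^(k n)`; `zpow` is injective for the base `p > 1`. -/
theorem dvd_idx {W0 W1 : Subgroup GQ} (hD : W0 ≤ Dq p) (hU : UnramNorm p W0)
    (h : IsOpenIn W0 W1) {y : Qbar} (hy : y ∈ Fx W1) {n : ℕ} (hn : nrm p y ^ n = (p : ℝ)⁻¹) :
    n ∣ (W1.subgroupOf W0).index := by
  have hp1 : (1 : ℝ) < p := by exact_mod_cast (Fact.out : p.Prime).one_lt
  have hp0 : (0 : ℝ) < p := by linarith
  have hy0 : y ≠ 0 := by
    rintro rfl
    rw [nrm_zero] at hn
    rcases Nat.eq_zero_or_pos n with rfl | hpos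
    · rw [pow_zero] at hn
      have : (p : ℝ) = 1 := by
        have := congrArg (·⁻¹) hn
        simpa using this.symm
      linarith
    · rw [zero_pow hpos.ne'] at hn
      exact (inv_pos.2 hp0).ne hn
  obtain ⟨k, hk⟩ := nrm_pow_idx hD hU h hy hy0
  set m := (W1.subgroupOf W0).index with hm
  have h1 : ((p : ℝ) ^ k) ^ n = ((p : ℝ)⁻¹) ^ m := by
    rw [← hk, ← hn, ← pow_mul, ← pow_mul, mul_comm]
  have h2 : (p : ℝ) ^ (k * n) = (p : ℝ) ^ (-(m : ℤ)) := by
    rw [zpow_mul, zpow_natCast, h1, zpow_neg, zpow_natCast, inv_pow]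
  have h3 : k * n = -(m : ℤ) := zpow_right_injective₀ hp0 hp1.ne' h2
  have h4 : (n : ℤ) ∣ (m : ℤ) := ⟨-k, by linarith⟩
  exact_mod_cast h4

/-- PROOF: `IsOpenIn.exists_charpoly` gives a monic polynomial over `Fix H` of degree the index
vanishing at `x` (`1 ∈ s`); `minpoly.min` / `minpoly.dvd` + `natDegree_le_of_dvd`. -/
theorem natDegree_minpoly_le_idx {H W : Subgroup GQ} (h : IsOpenIn H W) {x : Qbar}
    (hx : x ∈ Fx W) : (minpoly (Fx H) x).natDegree ≤ (W.subgroupOf H).index := by
  obtain ⟨s, hs, hcard, h1, f, hf⟩ := h.exists_charpoly hx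
  have hmon : ((s.map fun g : GQ => (X : Polynomial Qbar) - C (g x)).prod).Monic :=
    monic_multiset_prod_of_monic _ _ (fun g _ => monic_X_sub_C _)
  have hdeg : ((s.map fun g : GQ => (X : Polynomial Qbar) - C (g x)).prod).natDegree
      = Multiset.card s := by
    rw [natDegree_multiset_prod_of_monic]
    · simp
    · intro g hg
      obtain ⟨a, -, rfl⟩ := Multiset.mem_map.1 hg
      exact monic_X_sub_C _
  have hinj : Function.Injective (algebraMap (Fx H) Qbar) := (algebraMap (Fx H) Qbar).injective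
  have hfdeg : f.natDegree = Multiset.card s := by
    rw [← natDegree_map_eq_of_injective hinj f, hf, hdeg]
  have hf0 : f ≠ 0 := by
    rintro rfl
    rw [Polynomial.map_zero] at hf
    exact hmon.ne_zero hf.symm
  have hroot : aeval x f = 0 := by
    rw [aeval_def, ← eval_map, hf, eval_multiset_prod]
    apply Multiset.prod_eq_zero
    rw [Multiset.mem_map]
    refine ⟨X - C ((1 : GQ) x), Multiset.mem_map.2 ⟨1, h1, rfl⟩, ?_⟩
    simp
  have hdvd := minpoly.dvd (Fx H) x hroot
  calc (minpoly (Fx H) x).natDegree ≤ f.natDegree := natDegree_le_of_dvd hdvd hf0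
    _ = (W.subgroupOf H).index := by rw [hfdeg, hcard]

/-- `Subgroup.relIndex_mul_relIndex`. -/
theorem idx_mul {A B C : Subgroup GQ} (h1 : B ≤ A) (h2 : C ≤ B) :
    (B.subgroupOf A).index * (C.subgroupOf B).index = (C.subgroupOf A).index := by
  have := Subgroup.relIndex_mul_relIndex C B A h2 h1
  unfold Subgroup.relIndex at this
  rw [mul_comm]
  exact this

end Fermat.Agent.S56.F.K

end
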