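/-
S56 / F / K / IndexB : orbit counting.   `[W0 : W1] = (W1.subgroupOf W0).index`.
Task S56/F-K-IndexB.
-/
import Fermat.Agent.S56.F.K.Defs

set_option autoImplicit false

noncomputable section

namespace Fermat.Agent.S56.F.K

open Fermat.Agent.S55.Places hiding Fix
open Fermat.Agent.S55.Places renaming Fix → Fx
open Polynomial
open scoped IntermediateField

variable {p : ℕ} [Fact p.Prime]

/-- the orbit map `W ⧸ Stb W a → roots of f`. -/
theorem IndexB_orbit {W : Subgroup GQ} {a : Qbar} (f : Polynomial Qbar) (hf : f ≠ 0)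
    (hroot : ∀ g ∈ W, f.eval (g a) = 0) :
    ∃ φ : (W ⧸ (Stb W a).subgroupOf W) → f.roots.toFinset, Function.Injective φ ∧
      ∀ g : W, ((φ (QuotientGroup.mk g) : f.roots.toFinset) : Qbar) = (g : GQ) a := by
  have hmem : ∀ g : W, (g : GQ) a ∈ f.roots.toFinset := by
    intro g
    rw [Multiset.mem_toFinset, mem_roots hf]
    exact hroot g g.2
  have hrel : ∀ g h : W, QuotientGroup.leftRel ((Stb W a).subgroupOf W) g h →
      (⟨(g : GQ) a, hmem g⟩ : f.roots.toFinset) = ⟨(h : GQ) a, hmem h⟩ := by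
    intro g h hgh
    rw [QuotientGroup.leftRel_apply, Subgroup.mem_subgroupOf, mem_Stb] at hgh
    apply Subtype.ext
    have h2 : ((g : GQ)⁻¹ * (h : GQ)) a = a := by simpa using hgh.2
    have h3 : (g : GQ) (((g : GQ)⁻¹ * (h : GQ)) a) = (h : GQ) a := by
      rw [← AlgEquiv.mul_apply, mul_inv_cancel_left]
    show (g : GQ) a = (h : GQ) a
    rw [← h3, h2]
  refine ⟨Quotient.lift (fun g : W => (⟨(g : GQ) a, hmem g⟩ : f.roots.toFinset)) hrel, ?_, ?_⟩
  · intro x y
    induction x using QuotientGroup.induction_on with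
    | H g =>
    induction y using QuotientGroup.induction_on with
    | H h =>
    intro hxy
    have h1 : (g : GQ) a = (h : GQ) a := congrArg Subtype.val hxy
    rw [QuotientGroup.eq, Subgroup.mem_subgroupOf, mem_Stb]
    refine ⟨(g⁻¹ * h).2, ?_⟩
    show ((g : GQ)⁻¹ * (h : GQ)) a = a
    rw [AlgEquiv.mul_apply, ← h1, ← AlgEquiv.mul_apply, inv_mul_cancel, AlgEquiv.one_apply]
  · intro g
    rfl

/-- orbit counting: the index of the stabiliser is at most the degree of any nonzero polynomial
vanishing on the orbit.  PROOF: `W ⧸ Stb` injects into `f.roots.toFinset` by `g ↦ g a`;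
`Multiset.toFinset_card_le`, `card_roots'`. -/
theorem idx_Stb_le {W : Subgroup GQ} {a : Qbar} (f : Polynomial Qbar) (hf : f ≠ 0)
    (hroot : ∀ g ∈ W, f.eval (g a) = 0) : ((Stb W a).subgroupOf W).index ≤ f.natDegree := by
  obtain ⟨φ, hφ, -⟩ := IndexB_orbit f hf hroot
  have h1 : Nat.card (W ⧸ (Stb W a).subgroupOf W) ≤ Nat.card f.roots.toFinset :=
    Nat.card_le_card_of_injective φ hφ
  rw [Nat.card_eq_fintype_card (α := f.roots.toFinset), Fintype.card_coe] at h1
  calc ((Stb W a).subgroupOf W).index = Nat.card (W ⧸ (Stb W a).subgroupOf W) := rfl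
    _ ≤ f.roots.toFinset.card := h1
    _ ≤ Multiset.card f.roots := Multiset.toFinset_card_le _
    _ ≤ f.natDegree := card_roots' f

/-- if the orbit is as large as the degree, every root is in the orbit. -/
theorem exists_map_eq_of_le_idx_Stb {W : Subgroup GQ} {a : Qbar} (f : Polynomial Qbar) (hf : f ≠ 0)
    (hroot : ∀ g ∈ W, f.eval (g a) = 0) (hidx : f.natDegree ≤ ((Stb W a).subgroupOf W).index)
    {b : Qbar} (hb : f.eval b = 0) : ∃ g ∈ W, g a = b := by
  obtain ⟨φ, hφ, hφv⟩ := IndexB_orbit f hf hroot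
  have : Finite (W ⧸ (Stb W a).subgroupOf W) := Finite.of_injective φ hφ
  have : Fintype (W ⧸ (Stb W a).subgroupOf W) := Fintype.ofFinite _
  have hcard : Fintype.card f.roots.toFinset ≤ Fintype.card (W ⧸ (Stb W a).subgroupOf W) := by
    rw [Fintype.card_coe]
    calc f.roots.toFinset.card ≤ Multiset.card f.roots := Multiset.toFinset_card_le _
      _ ≤ f.natDegree := card_roots' f
      _ ≤ ((Stb W a).subgroupOf W).index := hidx
      _ = Nat.card (W ⧸ (Stb W a).subgroupOf W) := rfl
      _ = Fintype.card (W ⧸ (Stb W a).subgroupOf W) := Nat.card_eq_fintype_card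
  have hbij : Function.Bijective φ :=
    (Fintype.bijective_iff_injective_and_card φ).2
      ⟨hφ, le_antisymm (Fintype.card_le_of_injective φ hφ) hcard⟩
  have hbm : b ∈ f.roots.toFinset := by
    rw [Multiset.mem_toFinset, mem_roots hf]
    exact hb
  obtain ⟨x, hx⟩ := hbij.2 ⟨b, hbm⟩
  induction x using QuotientGroup.induction_on with
  | H g =>
  refine ⟨g, g.2, ?_⟩
  rw [← hφv g, hx]

end Fermat.Agent.S56.F.K

end
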