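/-
S56 / F / K / UltraB : elementary ultrametric estimates for `nrm p` on `Qbar` (no Galois theory).
Task S56/F-K-UltraB.
-/
import Fermat.Agent.S56.F.K.Defs

set_option autoImplicit false

noncomputable section

namespace Fermat.Agent.S56.F.K

open Fermat.Agent.S55.Places hiding Fix
open Fermat.Agent.S55.Places renaming Fix → Fx
open Polynomial
open scoped IntermediateField

variable {p : ℕ} [Fact p.Prime]

theorem UltraB_nrm_le_one {r : ℝ} (hr1 : r ≤ 1) {x : Qbar} (hx : nrm p (x - 1) ≤ r) :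
    nrm p x ≤ 1 := by
  have e : x = (x - 1) + 1 := by ring
  rw [e]
  exact (nrm_add_le_max p _ _).trans (max_le (hx.trans hr1) (by rw [nrm_one]))

theorem UltraB_mul {r : ℝ} (hr1 : r ≤ 1) {x y : Qbar} (hx : nrm p (x - 1) ≤ r)
    (hy : nrm p (y - 1) ≤ r) : nrm p (x * y - 1) ≤ r := by
  have e : x * y - 1 = (x - 1) * y + (y - 1) := by ring
  rw [e]
  refine (nrm_add_le_max p _ _).trans (max_le ?_ hy)
  rw [nrm_mul]
  calc nrm p (x - 1) * nrm p y ≤ nrm p (x - 1) * 1 :=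
        mul_le_mul_of_nonneg_left (UltraB_nrm_le_one hr1 hy) (nrm_nonneg p _)
    _ = nrm p (x - 1) := mul_one _
    _ ≤ r := hx

theorem UltraB_pow {r : ℝ} (hr0 : 0 ≤ r) (hr1 : r ≤ 1) {x : Qbar} (hx : nrm p (x - 1) ≤ r)
    (n : ℕ) : nrm p (x ^ n - 1) ≤ r := by
  induction n with
  | zero => rw [pow_zero, sub_self, nrm_zero]; exact hr0
  | succ n ih => rw [pow_succ]; exact UltraB_mul hr1 ih hx

theorem UltraB_geom_le_one {a b : Qbar} (ha : nrm p a ≤ 1) (hb : nrm p b ≤ 1) (n : ℕ) :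
    nrm p (∑ i ∈ Finset.range n, a ^ i * b ^ (n - 1 - i)) ≤ 1 := by
  refine nrm_sum_le p _ _ 1 zero_le_one (fun i _ => ?_)
  rw [nrm_mul, nrm_pow, nrm_pow]
  exact mul_le_one₀ (pow_le_one₀ (nrm_nonneg p _) ha) (pow_nonneg (nrm_nonneg p _) _)
    (pow_le_one₀ (nrm_nonneg p _) hb)

/-- (U3) `|u^a - v^a| = |u - v|` for principal units `u, v` and `p ∤ a`.
PROOF: `u^a - v^a = (u - v) * ∑_{m<a} u^m v^(a-1-m)` (`Commute.mul_geom_sum₂`/`geom_sum₂_mul`); the sum
minus `a` has norm `< 1` and `|a| = 1` (`nrm_natCast_eq_one`). -/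
theorem nrm_pow_sub_pow {u v : Qbar} (hu : nrm p (u - 1) < 1) (hv : nrm p (v - 1) < 1) {a : ℕ}
    (ha : ¬ p ∣ a) : nrm p (u ^ a - v ^ a) = nrm p (u - v) := by
  have hp : p.Prime := Fact.out
  set r : ℝ := max (nrm p (u - 1)) (nrm p (v - 1)) with hr
  have hr0 : 0 ≤ r := (nrm_nonneg p _).trans (le_max_left _ _)
  have hrlt : r < 1 := max_lt hu hv
  have hr1 : r ≤ 1 := hrlt.le
  have hur : nrm p (u - 1) ≤ r := le_max_left _ _
  have hvr : nrm p (v - 1) ≤ r := le_max_right _ _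
  set S : Qbar := ∑ i ∈ Finset.range a, u ^ i * v ^ (a - 1 - i) with hS
  have hSa : nrm p (S - a) ≤ r := by
    have e : S - a = ∑ i ∈ Finset.range a, (u ^ i * v ^ (a - 1 - i) - 1) := by
      rw [Finset.sum_sub_distrib, Finset.sum_const, Finset.card_range, nsmul_eq_mul, mul_one]
    rw [e]
    exact nrm_sum_le p _ _ r hr0
      (fun i _ => UltraB_mul hr1 (UltraB_pow hr0 hr1 hur i) (UltraB_pow hr0 hr1 hvr _))
  have ha1 : nrm p (a : Qbar) = 1 :=
    nrm_natCast_eq_one p ((Nat.Prime.coprime_iff_not_dvd hp).2 ha).symm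
  have hS1 : nrm p S = 1 := by
    have e : S = (S - a) + a := by ring
    have hne : nrm p (S - a) ≠ nrm p (a : Qbar) := by
      rw [ha1]
      exact (hSa.trans_lt hrlt).ne
    rw [e, nrm_add_eq_max_of_ne p hne, ha1]
    exact max_eq_right (hSa.trans hr1)
  rw [← geom_sum₂_mul, nrm_mul, ← hS, hS1, one_mul]

/-- (U4) an integral polynomial takes integral values at integral points. -/
theorem nrm_eval_le_one (P : Polynomial Qbar) (hP : ∀ i, nrm p (P.coeff i) ≤ 1) {a : Qbar}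
    (ha : nrm p a ≤ 1) : nrm p (P.eval a) ≤ 1 := by
  rw [eval_eq_sum_range]
  refine nrm_sum_le p _ _ 1 zero_le_one (fun i _ => ?_)
  rw [nrm_mul, nrm_pow]
  exact mul_le_one₀ (hP i) (pow_nonneg (nrm_nonneg p _) _) (pow_le_one₀ (nrm_nonneg p _) ha)

/-- (U5) an integral polynomial is 1-Lipschitz on the integers.
PROOF: `eval_eq_sum_range`, `a^i - b^i = (a-b) * (integral)`, `nrm_sum_le`. -/
theorem nrm_eval_sub_eval_le (P : Polynomial Qbar) (hP : ∀ i, nrm p (P.coeff i) ≤ 1) {a b : Qbar}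
    (ha : nrm p a ≤ 1) (hb : nrm p b ≤ 1) : nrm p (P.eval a - P.eval b) ≤ nrm p (a - b) := by
  rw [eval_eq_sum_range, eval_eq_sum_range, ← Finset.sum_sub_distrib]
  refine nrm_sum_le p _ _ _ (nrm_nonneg p _) (fun i _ => ?_)
  rw [← mul_sub, ← geom_sum₂_mul, nrm_mul, nrm_mul]
  calc nrm p (P.coeff i) * (nrm p (∑ j ∈ Finset.range i, a ^ j * b ^ (i - 1 - j)) * nrm p (a - b))
      ≤ 1 * (1 * nrm p (a - b)) :=
        mul_le_mul (hP i) (mul_le_mul_of_nonneg_right (UltraB_geom_le_one ha hb i)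
          (nrm_nonneg p _)) (mul_nonneg (nrm_nonneg p _) (nrm_nonneg p _)) zero_le_one
    _ = nrm p (a - b) := by rw [one_mul, one_mul]

end Fermat.Agent.S56.F.K

end
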