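/-
S56 / F / K / KumA : norms of `π` (`π^(p^2-1) = -p`), of `ζ - 1`, and of `α - 1` when `α^p` has level `j`.
Pure norm computations (no Galois theory).   Task S56/F-K-KumA.
-/
import Fermat.Agent.S56.F.K.UltraB

set_option autoImplicit false

noncomputable section

namespace Fermat.Agent.S56.F.K

open Fermat.Agent.S55.Places hiding Fix
open Fermat.Agent.S55.Places renaming Fix → Fx
open Polynomial
open scoped IntermediateField

variable {p : ℕ} [Fact p.Prime]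

/-- `nrm_neg`, `nrm_pow`, `nrm_natCast_self`. -/
theorem nrm_pi_pow {π : Qbar} (hπ : π ^ (p ^ 2 - 1) = -(p : Qbar)) :
    nrm p π ^ (p ^ 2 - 1) = (p : ℝ)⁻¹ := by
  rw [← nrm_pow, hπ, nrm_neg, nrm_natCast_self]

theorem KumA_e_pos : 0 < p ^ 2 - 1 := by
  have hp : 2 ≤ p := (Fact.out : p.Prime).two_le
  have : 2 ^ 2 ≤ p ^ 2 := Nat.pow_le_pow_left hp 2
  omega

theorem nrm_pi_pos {π : Qbar} (hπ : π ^ (p ^ 2 - 1) = -(p : Qbar)) : 0 < nrm p π := by
  rw [nrm_pos_iff]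
  rintro rfl
  rw [zero_pow KumA_e_pos.ne'] at hπ
  have hp : (p : Qbar) ≠ 0 := by exact_mod_cast (Fact.out : p.Prime).ne_zero
  exact hp (neg_eq_zero.mp hπ.symm)

theorem nrm_pi_lt_one {π : Qbar} (hπ : π ^ (p ^ 2 - 1) = -(p : Qbar)) : nrm p π < 1 := by
  have hp1 : (1 : ℝ) < p := by exact_mod_cast (Fact.out : p.Prime).one_lt
  by_contra hcon
  rw [not_lt] at hcon
  have h1 : 1 ≤ nrm p π ^ (p ^ 2 - 1) := one_le_pow₀ hcon
  rw [nrm_pi_pow hπ] at h1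
  exact absurd h1 (not_le.mpr (inv_lt_one_of_one_lt₀ hp1))

omit [Fact p.Prime] in
theorem KumA_sq_sub_one : p ^ 2 - 1 = (p + 1) * (p - 1) := by
  have := Nat.sq_sub_sq p 1
  rwa [one_pow] at this

/-- `|ζ - 1| = |π|^(p+1)`.  PROOF: `ζ` is a primitive `p`-th root of unity
(`IsPrimitiveRoot.of_... `: `ζ^p = 1`, `ζ ≠ 1`, `p` prime); `nrm_one_sub_zeta` (n = 0):
`|1 - ζ|^(p-1) = 1/p = |π|^(p^2-1) = (|π|^(p+1))^(p-1)`; `pow_left_injective` on nonnegative reals. -/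
theorem nrm_zeta_sub_one {π : Qbar} (hπ : π ^ (p ^ 2 - 1) = -(p : Qbar)) {ζ : Qbar}
    (hζ : ζ ^ p = 1) (h1 : ζ ≠ 1) : nrm p (ζ - 1) = nrm p π ^ (p + 1) := by
  have hp : p.Prime := Fact.out
  have hprim : IsPrimitiveRoot ζ (p ^ (0 + 1)) := by
    rw [zero_add, pow_one, ← orderOf_eq_prime hζ h1]
    exact IsPrimitiveRoot.orderOf ζ
  have h2 := nrm_one_sub_zeta hprim
  rw [pow_zero, one_mul, nrm_sub_comm, ← nrm_pi_pow hπ, KumA_sq_sub_one, pow_mul] at h2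
  have hp1 : p - 1 ≠ 0 := by have := hp.two_le; omega
  exact (pow_left_inj₀ (nrm_nonneg p _) (pow_nonneg (nrm_nonneg p _) _) hp1).mp h2

/-- `|(1+β)^p - 1 - β^p| ≤ |p| |β|` for `|β| ≤ 1`. -/
theorem KumA_binom {β : Qbar} (hβ : nrm p β ≤ 1) :
    nrm p ((β + 1) ^ p - 1 - β ^ p) ≤ (p : ℝ)⁻¹ * nrm p β := by
  have hp : p.Prime := Fact.out
  have hp0 : (0 : ℝ) < (p : ℝ)⁻¹ := by
    have : (0 : ℝ) < p := by exact_mod_cast hp.pos
    positivity
  obtain ⟨s, hs⟩ : ∃ s, p = s + 1 := ⟨p - 1, by have := hp.two_le; omega⟩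
  have hexp : (β + 1) ^ p - 1 - β ^ p =
      ∑ m ∈ Finset.range s, β ^ (m + 1) * ((p.choose (m + 1) : ℕ) : Qbar) := by
    rw [add_pow]
    have hp' : p + 1 = s + 1 + 1 := by omega
    rw [hp', Finset.sum_range_succ, Finset.sum_range_succ']
    simp only [one_pow, mul_one, pow_zero, Nat.choose_zero_right, Nat.cast_one]
    rw [← hs, Nat.choose_self, Nat.cast_one]
    ring
  rw [hexp]
  apply nrm_sum_le p _ _ _ (mul_nonneg hp0.le (nrm_nonneg p _))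
  intro m hm
  rw [Finset.mem_range] at hm
  obtain ⟨t, ht⟩ := hp.dvd_choose_self (by omega : m + 1 ≠ 0) (by omega : m + 1 < p)
  rw [ht, Nat.cast_mul, nrm_mul, nrm_mul, nrm_pow, nrm_natCast_self]
  calc nrm p β ^ (m + 1) * ((p : ℝ)⁻¹ * nrm p (t : Qbar))
      ≤ nrm p β * ((p : ℝ)⁻¹ * 1) := by
        apply mul_le_mul _ _ (mul_nonneg hp0.le (nrm_nonneg p _)) (nrm_nonneg p _)
        · calc nrm p β ^ (m + 1) ≤ nrm p β ^ 1 :=
                pow_le_pow_of_le_one (nrm_nonneg p _) hβ (by omega)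
            _ = nrm p β := pow_one _
        · exact mul_le_mul_of_nonneg_left (nrm_natCast_le_one p t) hp0.le
    _ = (p : ℝ)⁻¹ * nrm p β := by ring

/-- `|α^p - 1| = |π|^j`, `0 < j < p^2+p` ⟹ `|α - 1|^p = |π|^j`.
PROOF: `β = α - 1`.  `(1+β)^p - 1 - β^p = ∑_{0<k<p} (p choose k) β^k`.  First `|β| < 1`: otherwise
`|β| ≥ 1`; if `|β| > 1` then `|α| = |β| > 1` and `|α^p - 1| = |α|^p > 1`; if `|β| = 1` then
`|α| ≤ 1` and `|α^p - 1 - β^p| ≤ 1/p < 1` gives `|α^p - 1| = 1`; both contradict `|π|^j < 1`.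
So `|α^p - 1 - β^p| ≤ |p| |β|` (each `(p choose k)` is divisible by `p`: `Nat.Prime.dvd_choose_self`).
If `|β|^p ≠ |p||β|`-dominated, i.e. `|β|^(p-1) > |p|`: `|α^p - 1| = |β|^p` (`nrm_add_eq_max_of_ne`). Otherwise
`|β|^(p-1) ≤ |p|`, so `|α^p - 1| ≤ |p||β|` and `(|p||β|)^(p-1) ≤ |p|^p = |π|^((p^2-1)p)
= (|π|^(p^2+p))^(p-1)`, i.e. `|π|^j ≤ |π|^(p^2+p)`, contradicting `j < p^2+p`, `|π| < 1`. -/
theorem nrm_sub_one_pow {π : Qbar} (hπ : π ^ (p ^ 2 - 1) = -(p : Qbar)) {α : Qbar} {j : ℕ}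
    (hj0 : 0 < j) (hj : j < p ^ 2 + p) (h : nrm p (α ^ p - 1) = nrm p π ^ j) :
    nrm p (α - 1) ^ p = nrm p π ^ j := by
  have hp : p.Prime := Fact.out
  have hp1 : (1 : ℝ) < p := by exact_mod_cast hp.one_lt
  have hP0 : (0 : ℝ) < (p : ℝ)⁻¹ := by positivity
  have hP1 : (p : ℝ)⁻¹ < 1 := inv_lt_one_of_one_lt₀ hp1
  have hr0 := nrm_pi_pos hπ
  have hr1 := nrm_pi_lt_one hπ
  have hrj : nrm p π ^ j < 1 := pow_lt_one₀ hr0.le hr1 hj0.ne'
  obtain ⟨β, hβ⟩ : ∃ β, β = α - 1 := ⟨_, rfl⟩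
  have hα : α = β + 1 := by rw [hβ]; ring
  rw [← hβ]
  rw [hα] at h
  have hb0 : 0 ≤ nrm p β := nrm_nonneg p β
  have hsplit : (β + 1) ^ p - 1 = ((β + 1) ^ p - 1 - β ^ p) + β ^ p := by ring
  -- Step 1
  have hb1 : nrm p β < 1 := by
    by_contra hcon
    rw [not_lt] at hcon
    rcases hcon.lt_or_eq with hgt | heq
    · have h1 : nrm p (β + 1) = nrm p β := by
        rw [nrm_add_eq_max_of_ne p (by rw [nrm_one]; exact hgt.ne'), nrm_one]
        exact max_eq_left hgt.le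
      have h2 : 1 < nrm p ((β + 1) ^ p) := by
        rw [nrm_pow, h1]
        exact one_lt_pow₀ hgt hp.ne_zero
      have h3 : nrm p ((β + 1) ^ p - 1) = nrm p ((β + 1) ^ p) := by
        rw [sub_eq_add_neg, nrm_add_eq_max_of_ne p (by rw [nrm_neg, nrm_one]; exact h2.ne'),
          nrm_neg, nrm_one]
        exact max_eq_left h2.le
      rw [h3] at h
      linarith
    · have hK := KumA_binom (p := p) (β := β) heq.symm.le
      rw [← heq, mul_one] at hK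
      have h2 : nrm p (β ^ p) = 1 := by rw [nrm_pow, ← heq, one_pow]
      have h3 : nrm p ((β + 1) ^ p - 1) = 1 := by
        rw [hsplit, nrm_add_eq_max_of_ne p (by rw [h2]; exact (hK.trans_lt hP1).ne), h2]
        exact max_eq_right (hK.trans hP1.le)
      rw [h3] at h
      linarith
  have hK := KumA_binom (p := p) (β := β) hb1.le
  have hpow : ∀ x : ℝ, x ^ p = x ^ (p - 1) * x := fun x => by
    rw [← pow_succ, Nat.sub_add_cancel hp.one_le]
  have hbp : nrm p β ^ p = nrm p β ^ (p - 1) * nrm p β := hpow _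
  by_cases hcase : (p : ℝ)⁻¹ < nrm p β ^ (p - 1)
  · have hbpos : 0 < nrm p β := by
      rcases hb0.lt_or_eq with h0 | h0
      · exact h0
      · exfalso
        rw [← h0, zero_pow (by have := hp.two_le; omega)] at hcase
        linarith
    have h1 : (p : ℝ)⁻¹ * nrm p β < nrm p (β ^ p) := by
      rw [nrm_pow, hbp]
      exact mul_lt_mul_of_pos_right hcase hbpos
    rw [hsplit, nrm_add_eq_max_of_ne p (hK.trans_lt h1).ne, max_eq_right (hK.trans h1.le),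
      nrm_pow] at h
    exact h
  · exfalso
    rw [not_lt] at hcase
    have h1 : nrm p (β ^ p) ≤ (p : ℝ)⁻¹ * nrm p β := by
      rw [nrm_pow, hbp]
      exact mul_le_mul_of_nonneg_right hcase hb0
    have h2 : nrm p π ^ j ≤ (p : ℝ)⁻¹ * nrm p β := by
      rw [← h, hsplit]
      exact (nrm_add_le_max p _ _).trans (max_le hK h1)
    have h3 : (nrm p π ^ j) ^ (p - 1) ≤ (nrm p π ^ (p ^ 2 + p)) ^ (p - 1) := by
      calc (nrm p π ^ j) ^ (p - 1) ≤ ((p : ℝ)⁻¹ * nrm p β) ^ (p - 1) :=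
            pow_le_pow_left₀ (pow_nonneg hr0.le _) h2 _
        _ = (p : ℝ)⁻¹ ^ (p - 1) * nrm p β ^ (p - 1) := mul_pow _ _ _
        _ ≤ (p : ℝ)⁻¹ ^ (p - 1) * (p : ℝ)⁻¹ :=
            mul_le_mul_of_nonneg_left hcase (pow_nonneg hP0.le _)
        _ = (p : ℝ)⁻¹ ^ p := (hpow _).symm
        _ = (nrm p π ^ (p ^ 2 + p)) ^ (p - 1) := by
            rw [← nrm_pi_pow hπ, ← pow_mul, ← pow_mul, KumA_sq_sub_one]
            congr 1
            ring
    have hp1' : p - 1 ≠ 0 := by have := hp.two_le; omega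
    have h4 : nrm p π ^ j ≤ nrm p π ^ (p ^ 2 + p) :=
      (pow_le_pow_iff_left₀ (pow_nonneg hr0.le _) (pow_nonneg hr0.le _) hp1').mp h3
    have h5 : p ^ 2 + p ≤ j := (pow_le_pow_iff_right_of_lt_one₀ hr0 hr1).mp h4
    omega

end Fermat.Agent.S56.F.K

end
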