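/-
S56 / F / K / KumB : the uniformiser `Y(γ) = (γ-1)^a / π^b`, `a j = 1 + b p`, of `K0(π, γ)`, `γ^p = x` of
level `j`, and the distance between two conjugates.   Task S56/F-K-KumB.
-/
import Fermat.Agent.S56.F.K.KumA

set_option autoImplicit false

noncomputable section

namespace Fermat.Agent.S56.F.K

open Fermat.Agent.S55.Places hiding Fix
open Fermat.Agent.S55.Places renaming Fix → Fx
open Polynomial
open scoped IntermediateField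

variable {p : ℕ} [Fact p.Prime]

/-- `|Y(γ)|^p = |π|`.  PROOF: `|γ-1|^p = |π|^j` (`nrm_sub_one_pow`), so
`|Y|^p = |π|^(a j) / |π|^(b p) = |π|^(1 + b p) / |π|^(b p)`. -/
theorem nrm_unif_pow {π : Qbar} (hπ : π ^ (p ^ 2 - 1) = -(p : Qbar)) {γ : Qbar} {j a b : ℕ}
    (hj0 : 0 < j) (hj : j < p ^ 2 + p) (h : nrm p (γ ^ p - 1) = nrm p π ^ j)
    (hab : a * j = 1 + b * p) : nrm p ((γ - 1) ^ a / π ^ b) ^ p = nrm p π := by
  have hr := nrm_pi_pos hπ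
  have hs := nrm_sub_one_pow hπ hj0 hj h
  rw [nrm_div, nrm_pow, nrm_pow, div_pow, ← pow_mul, mul_comm a p, pow_mul, hs, ← pow_mul,
    ← pow_mul, mul_comm j a, hab, pow_add, pow_one]
  field_simp

/-- `|Y(γ)|^(p (p^2-1)) = 1/p`. -/
theorem nrm_unif_pow' {π : Qbar} (hπ : π ^ (p ^ 2 - 1) = -(p : Qbar)) {γ : Qbar} {j a b : ℕ}
    (hj0 : 0 < j) (hj : j < p ^ 2 + p) (h : nrm p (γ ^ p - 1) = nrm p π ^ j)
    (hab : a * j = 1 + b * p) :
    nrm p ((γ - 1) ^ a / π ^ b) ^ (p * (p ^ 2 - 1)) = (p : ℝ)⁻¹ := by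
  rw [pow_mul, nrm_unif_pow hπ hj0 hj h hab, nrm_pi_pow hπ]

/-- `|Y(γ) - Y(γ')|^p = |π|^(p^2+p+1-j)` for two distinct `p`-th roots `γ, γ'` of the same `x`.
PROOF: `γ = ζ γ'`, `ζ = γ/γ'`, `ζ^p = 1`, `ζ ≠ 1` (`γ' ≠ 0` since `|γ'^p - 1| < 1`); `|γ'| = 1`
(`nrm_eq_one_of_sub_one_lt` applied to `γ'^p`, then `pow`), so `|γ - γ'| = |ζ-1| = |π|^(p+1)`
(`nrm_zeta_sub_one`).  `u = (γ-1)/(γ'-1)`: `u - 1 = (γ-γ')/(γ'-1)`, `|u-1|^p = |π|^(p(p+1)) / |π|^j < 1`.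
`p ∤ a` by `hab`.  `nrm_pow_sub_pow` (with `v = 1`): `|u^a - 1| = |u - 1|`.
`Y(γ) - Y(γ') = Y(γ') (u^a - 1)`, and `|Y(γ')|^p = |π|` (`nrm_unif_pow`, `γ'^p = γ^p`).
So the `p`-th power of the norm is `|π| |π|^(p^2+p) / |π|^j`. -/
theorem nrm_unif_sub_pow {π : Qbar} (hπ : π ^ (p ^ 2 - 1) = -(p : Qbar)) {γ γ' : Qbar}
    {j a b : ℕ} (hj0 : 0 < j) (hj : j < p ^ 2 + p) (h : nrm p (γ ^ p - 1) = nrm p π ^ j)
    (hab : a * j = 1 + b * p) (hpow : γ' ^ p = γ ^ p) (hne : γ' ≠ γ) :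
    nrm p ((γ - 1) ^ a / π ^ b - (γ' - 1) ^ a / π ^ b) ^ p = nrm p π ^ (p ^ 2 + p + 1 - j) := by
  have hp : p.Prime := Fact.out
  have hr := nrm_pi_pos hπ
  have hr1 := nrm_pi_lt_one hπ
  have hπ0 : π ≠ 0 := (nrm_pos_iff p).1 hr
  have h' : nrm p (γ' ^ p - 1) = nrm p π ^ j := by rw [hpow]; exact h
  have hlt : nrm p (γ' ^ p - 1) < 1 := by
    rw [h']; exact pow_lt_one₀ hr.le hr1 hj0.ne'
  -- `|γ'| = 1`
  have hγ'p : nrm p (γ' ^ p) = 1 := by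
    have e : γ' ^ p = (γ' ^ p - 1) + 1 := by ring
    have hne1 : nrm p (γ' ^ p - 1) ≠ nrm p (1 : Qbar) := by rw [nrm_one]; exact hlt.ne
    rw [e, nrm_add_eq_max_of_ne p hne1, nrm_one, max_eq_right hlt.le]
  have hγ'n : nrm p γ' = 1 := by
    rw [nrm_pow] at hγ'p
    exact (pow_eq_one_iff_of_nonneg (nrm_nonneg p _) hp.ne_zero).1 hγ'p
  have hγ'0 : γ' ≠ 0 := by
    rw [← nrm_pos_iff p, hγ'n]; exact one_pos
  -- `|γ - γ'| = |π|^(p+1)`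
  have hζp : (γ / γ') ^ p = 1 := by
    rw [div_pow, hpow, div_self]
    rw [← hpow]; exact pow_ne_zero p hγ'0
  have hζ1 : γ / γ' ≠ 1 := by
    intro e
    rw [div_eq_one_iff_eq hγ'0] at e
    exact hne e.symm
  have hζ := nrm_zeta_sub_one hπ hζp hζ1
  have hdiff : nrm p (γ - γ') = nrm p π ^ (p + 1) := by
    have e : γ - γ' = (γ / γ' - 1) * γ' := by field_simp
    rw [e, nrm_mul, hζ, hγ'n, mul_one]
  -- `γ' - 1`
  have hs' := nrm_sub_one_pow hπ hj0 hj h'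
  have hs'pos : 0 < nrm p (γ' - 1) := by
    rcases (nrm_nonneg p (γ' - 1)).lt_or_eq with h0 | h0
    · exact h0
    · rw [← h0, zero_pow hp.ne_zero] at hs'
      exact absurd hs' (pow_pos hr j).ne
  have hγ'1 : γ' - 1 ≠ 0 := (nrm_pos_iff p).1 hs'pos
  -- `u`
  have hu1 : (γ - 1) / (γ' - 1) - 1 = (γ - γ') / (γ' - 1) := by
    field_simp
    ring
  have hupow : nrm p ((γ - 1) / (γ' - 1) - 1) ^ p = nrm p π ^ ((p + 1) * p) / nrm p π ^ j := by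
    rw [hu1, nrm_div, div_pow, hdiff, hs', ← pow_mul]
  have hjlt : j < (p + 1) * p := by
    have : (p + 1) * p = p ^ 2 + p := by ring
    omega
  have hult : nrm p ((γ - 1) / (γ' - 1) - 1) < 1 := by
    by_contra hcon
    push Not at hcon
    have h1 : 1 ≤ nrm p ((γ - 1) / (γ' - 1) - 1) ^ p := one_le_pow₀ hcon
    rw [hupow, le_div_iff₀ (pow_pos hr j), one_mul] at h1
    exact absurd h1 (not_le.2 (pow_lt_pow_right_of_lt_one₀ hr hr1 hjlt))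
  have hpa : ¬ p ∣ a := by
    intro hd
    have h1 : p ∣ 1 + b * p := by rw [← hab]; exact Dvd.dvd.mul_right hd j
    have h2 : p ∣ 1 := (Nat.dvd_add_left (Dvd.intro_left b rfl)).1 h1
    exact hp.one_lt.ne' (Nat.dvd_one.1 h2)
  have hua := nrm_pow_sub_pow (p := p) hult (v := 1) (by rw [sub_self, nrm_zero]; exact one_pos) hpa
  rw [one_pow] at hua
  have hY : (γ - 1) ^ a / π ^ b - (γ' - 1) ^ a / π ^ b =
      (γ' - 1) ^ a / π ^ b * (((γ - 1) / (γ' - 1)) ^ a - 1) := by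
    rw [div_pow]
    field_simp
  rw [hY, nrm_mul, mul_pow, nrm_unif_pow hπ hj0 hj h' hab, hua, hupow]
  have he : p ^ 2 + p + 1 - j + j = 1 + (p + 1) * p := by
    have : (p + 1) * p = p ^ 2 + p := by ring
    omega
  rw [← mul_div_assoc, div_eq_iff (pow_pos hr j).ne', ← pow_add, he, pow_add, pow_one]

end Fermat.Agent.S56.F.K

end
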