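/-
S56 / F / K / Idx : the degrees of `K0(π)/K0` and `K0(π, α)/K0(π)`, `α^p = x ∈ K0(π)` of level `j`, `p ∤ j`
(through `a j = 1 + b p`); all `p`-th roots of `x` are conjugate.     Task S56/F-K-Idx.
-/
import Fermat.Agent.S56.F.K.KumB
import Fermat.Agent.S56.F.K.IndexA
import Fermat.Agent.S56.F.K.IndexB

set_option autoImplicit false

noncomputable section

namespace Fermat.Agent.S56.F.K

open Fermat.Agent.S55.Places hiding Fix
open Fermat.Agent.S55.Places renaming Fix → Fx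
open Polynomial
open scoped IntermediateField

variable {p : ℕ} [Fact p.Prime]

/-- `X^p - C (α^p)`: degree, nonvanishing, roots. -/
theorem Idx_kummer_poly (α : Qbar) :
    ((X : Polynomial Qbar) ^ p - C (α ^ p)).natDegree = p ∧
      (X : Polynomial Qbar) ^ p - C (α ^ p) ≠ 0 := by
  have hp : p.Prime := Fact.out
  have hdeg : ((X : Polynomial Qbar) ^ p - C (α ^ p)).natDegree = p := natDegree_X_pow_sub_C
  refine ⟨hdeg, fun h => ?_⟩
  rw [h, natDegree_zero] at hdeg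
  exact hp.ne_zero hdeg.symm

theorem Idx_kummer_root {WL : Subgroup GQ} {α : Qbar} (hx : α ^ p ∈ Fx WL) :
    ∀ g ∈ WL, ((X : Polynomial Qbar) ^ p - C (α ^ p)).eval (g α) = 0 := by
  intro g hg
  rw [eval_sub, eval_pow, eval_X, eval_C, ← map_pow, mem_Fix_iff.1 hx g hg, sub_self]

/-- `idx_Stb_le` with `f = X^(p^2-1) + C p`. -/
theorem idx_tame_le {π : Qbar} (hπ : π ^ (p ^ 2 - 1) = -(p : Qbar)) (D0 : Subgroup GQ) :
    ((Stb D0 π).subgroupOf D0).index ≤ p ^ 2 - 1 := by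
  have hp : p.Prime := Fact.out
  have hn : 0 < p ^ 2 - 1 := by
    have h2 := hp.two_le
    have h4 : 4 ≤ p ^ 2 := by nlinarith
    omega
  have hdeg : ((X : Polynomial Qbar) ^ (p ^ 2 - 1) + C (p : Qbar)).natDegree = p ^ 2 - 1 :=
    natDegree_X_pow_add_C
  have hf : (X : Polynomial Qbar) ^ (p ^ 2 - 1) + C (p : Qbar) ≠ 0 := by
    intro h
    rw [h, natDegree_zero] at hdeg
    omega
  have h := idx_Stb_le (W := D0) (a := π) _ hf (fun g _ => by
    rw [eval_add, eval_pow, eval_X, eval_C, ← map_pow, hπ, map_neg, map_natCast, neg_add_cancel])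
  rwa [hdeg] at h

/-- `idx_Stb_le` with `f = X^p - C (α^p)`. -/
theorem idx_kummer_le {WL : Subgroup GQ} {α : Qbar} (hx : α ^ p ∈ Fx WL) :
    ((Stb WL α).subgroupOf WL).index ≤ p := by
  have h := idx_Stb_le (W := WL) (a := α) _ (Idx_kummer_poly (p := p) α).2 (Idx_kummer_root hx)
  rwa [(Idx_kummer_poly (p := p) α).1] at h

/-- `Y = (α-1)^a/π^b` is fixed by `Stb (Stb D0 π) α`. -/
theorem unif_mem_Fix (D0 : Subgroup GQ) (π α : Qbar) (a b : ℕ) :
    (α - 1) ^ a / π ^ b ∈ Fx (Stb (Stb D0 π) α) := by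
  rw [mem_Fix_iff]
  intro g hg
  have h1 := mem_Stb.1 hg
  have h2 := (mem_Stb.1 h1.1).2
  rw [map_div₀, map_pow, map_pow, map_sub, map_one, h1.2, h2]

/-- PROOF: `n = [D0:WN] = [D0:WL] [WL:WN] ≤ (p^2-1) p` (`idx_mul`, `idx_tame_le`, `idx_kummer_le`),
`n ≠ 0` (`IsOpenIn.finiteIndex`, `isOpenIn_Stb`, `IsOpenIn.trans`), `p (p^2-1) ∣ n` (`dvd_idx` for
`Y`, `nrm_unif_pow'`, `unif_mem_Fix`).  So `n = p (p^2-1)`, and then `[WL:WN] = p`. -/
theorem idx_eq {D0 : Subgroup GQ} (hD : D0 ≤ Dq p) (hU : UnramNorm p D0) {π α : Qbar}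
    (hπ : π ^ (p ^ 2 - 1) = -(p : Qbar)) {j a b : ℕ} (hj0 : 0 < j) (hj : j < p ^ 2 + p)
    (hlev : nrm p (α ^ p - 1) = nrm p π ^ j) (hab : a * j = 1 + b * p)
    (hx : α ^ p ∈ Fx (Stb D0 π)) :
    ((Stb (Stb D0 π) α).subgroupOf D0).index = p * (p ^ 2 - 1) ∧
      ((Stb (Stb D0 π) α).subgroupOf (Stb D0 π)).index = p := by
  have hp : p.Prime := Fact.out
  have hn : 0 < p ^ 2 - 1 := by
    have h2 := hp.two_le
    have h4 : 4 ≤ p ^ 2 := by nlinarith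
    omega
  have hmul := idx_mul (Stb_le D0 π) (Stb_le (Stb D0 π) α)
  have h1 := idx_tame_le hπ D0
  have h2 := idx_kummer_le hx
  have hopen : IsOpenIn D0 (Stb (Stb D0 π) α) :=
    (isOpenIn_Stb D0 π).trans (isOpenIn_Stb (Stb D0 π) α)
  have hn0 := hopen.finiteIndex
  have hdvd : p * (p ^ 2 - 1) ∣ ((Stb (Stb D0 π) α).subgroupOf D0).index :=
    dvd_idx hD hU hopen (unif_mem_Fix D0 π α a b) (nrm_unif_pow' hπ hj0 hj hlev hab)
  have hle := Nat.le_of_dvd (Nat.pos_of_ne_zero hn0) hdvd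
  have hle' : ((Stb (Stb D0 π) α).subgroupOf D0).index ≤ (p ^ 2 - 1) * p := by
    rw [← hmul]
    exact Nat.mul_le_mul h1 h2
  refine ⟨le_antisymm (by rwa [mul_comm]) hle, le_antisymm h2 ?_⟩
  by_contra hcon
  rw [not_le] at hcon
  have h3 : ((Stb D0 π).subgroupOf D0).index * ((Stb (Stb D0 π) α).subgroupOf (Stb D0 π)).index
      < (p ^ 2 - 1) * p :=
    lt_of_le_of_lt (Nat.mul_le_mul_right _ h1) (Nat.mul_lt_mul_of_pos_left hcon hn)
  rw [hmul, mul_comm] at h3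
  exact absurd hle (not_le.2 h3)

/-- `exists_map_eq_of_le_idx_Stb` with `f = X^p - C (α^p)` and `idx_eq`. -/
theorem exists_conj {D0 : Subgroup GQ} (hD : D0 ≤ Dq p) (hU : UnramNorm p D0) {π α : Qbar}
    (hπ : π ^ (p ^ 2 - 1) = -(p : Qbar)) {j a b : ℕ} (hj0 : 0 < j) (hj : j < p ^ 2 + p)
    (hlev : nrm p (α ^ p - 1) = nrm p π ^ j) (hab : a * j = 1 + b * p)
    (hx : α ^ p ∈ Fx (Stb D0 π)) {γ : Qbar} (hγ : γ ^ p = α ^ p) :
    ∃ g ∈ Stb D0 π, g α = γ := by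
  refine exists_map_eq_of_le_idx_Stb (W := Stb D0 π) (a := α) _ (Idx_kummer_poly (p := p) α).2
    (Idx_kummer_root hx) ?_ ?_
  · rw [(Idx_kummer_poly (p := p) α).1, (idx_eq hD hU hπ hj0 hj hlev hab hx).2]
  · rw [eval_sub, eval_pow, eval_X, eval_C, hγ, sub_self]

end Fermat.Agent.S56.F.K

end
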