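/-
S56 / F / K / OrthoA : (K0) structure of totally ramified extensions of an unramified base.
`Fix W0` unramified, `|y|^n = 1/p`: the powers `1, y, .., y^(n-1)` are orthogonal over `Fix W0`.
Task S56/F-K-OrthoA.
-/
import Fermat.Agent.S56.F.K.UltraA

set_option autoImplicit false

noncomputable section

namespace Fermat.Agent.S56.F.K

open Fermat.Agent.S55.Places hiding Fix
open Fermat.Agent.S55.Places renaming Fix → Fx
open Polynomial
open scoped IntermediateField

variable {p : ℕ} [Fact p.Prime]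

/-- (K0, orthogonality).  PROOF: `le_nrm_sum_of_ne`.  If `i < j < n`, `c i, c j ≠ 0` and
`|c i| |y|^i = |c j| |y|^j` then `|y|^(j-i) = p^k`, so (n-th power) `p^(-(j-i)) = p^(k n)`, `n ∣ j - i`,
impossible.  (If `c j = 0` the norms differ because `c i y^i ≠ 0`.) -/
theorem le_nrm_sum {W0 : Subgroup GQ} (hU : UnramNorm p W0) {n : ℕ} {y : Qbar}
    (hy : nrm p y ^ n = (p : ℝ)⁻¹) (c : ℕ → Qbar) (hc : ∀ i, c i ∈ Fx W0) {i : ℕ} (hi : i < n) :
    nrm p (c i) * nrm p y ^ i ≤ nrm p (∑ i ∈ Finset.range n, c i * y ^ i) := by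
  have hp1 : (1 : ℝ) < p := by exact_mod_cast (Fact.out : p.Prime).one_lt
  have hp0 : (p : ℝ) ≠ 0 := by positivity
  have key : ∀ (a : ℤ) (i : ℕ), ((p : ℝ) ^ a * nrm p y ^ i) ^ n = (p : ℝ) ^ (a * n - i) := by
    intro a i
    rw [mul_pow, ← pow_mul, mul_comm i n, pow_mul, hy, inv_pow, ← zpow_natCast ((p : ℝ) ^ a) n,
      ← zpow_mul, zpow_sub₀ hp0, zpow_natCast, div_eq_mul_inv]
  have h := le_nrm_sum_of_ne (p := p) (Finset.range n) (fun i => c i * y ^ i) (by
    intro i hi j hj hij hne heq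
    rw [Finset.mem_range] at hi hj
    have hci : c i ≠ 0 := left_ne_zero_of_mul hne
    have hcj : c j ≠ 0 := by
      rintro h0
      rw [h0, zero_mul, nrm_zero, nrm_eq_zero_iff] at heq
      exact hne heq
    obtain ⟨a, ha⟩ := hU (c i) (hc i) hci
    obtain ⟨b, hb⟩ := hU (c j) (hc j) hcj
    rw [nrm_mul, nrm_mul, nrm_pow, nrm_pow, ha, hb] at heq
    have h2 := congrArg (· ^ n) heq
    simp only [key] at h2
    have h3 : a * n - i = b * n - j := zpow_right_injective₀ (by positivity) hp1.ne' h2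
    have h4 : (n : ℤ) ∣ (i : ℤ) - j := ⟨a - b, by linarith⟩
    have h5 : (i : ℤ) - j = 0 := Int.eq_zero_of_abs_lt_dvd h4 (abs_lt.mpr ⟨by omega, by omega⟩)
    omega) (Finset.mem_range.mpr hi)
  simpa only [nrm_mul, nrm_pow] using h

/-- PROOF: if `m = natDegree < n`, apply `le_nrm_sum` to `c i = coeff i` and `i = m`:
`∑_{i<n} c i y^i = aeval y (minpoly) = 0` (`aeval_eq_sum_range'`), but `c m = 1`, `y ≠ 0`.
(`y` is integral over `Fix W0`: `Qbar` is algebraic over `ℚ`.) -/
theorem le_natDegree_minpoly {W0 : Subgroup GQ} (hU : UnramNorm p W0) {n : ℕ} {y : Qbar}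
    (hy : nrm p y ^ n = (p : ℝ)⁻¹) : n ≤ (minpoly (Fx W0) y).natDegree := by
  by_contra hlt
  push Not at hlt
  have hp0 : (0 : ℝ) < p := by exact_mod_cast (Fact.out : p.Prime).pos
  have hy0 : y ≠ 0 := by
    rintro rfl
    rw [nrm_zero, zero_pow (by omega)] at hy
    exact (inv_pos.mpr hp0).ne hy
  have hint : IsIntegral (Fx W0) y := by
    have h1 : IsIntegral ℚ y := by
      have := isAlgClosureQbar
      exact (this.isAlgebraic.isAlgebraic y).isIntegral
    exact h1.tower_top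
  have hsum : ∑ i ∈ Finset.range n, (((minpoly (Fx W0) y).coeff i : Fx W0) : Qbar) * y ^ i = 0 := by
    have h1 := aeval_eq_sum_range' hlt y
    rw [minpoly.aeval] at h1
    rw [h1]
    refine Finset.sum_congr rfl fun i _ => ?_
    rfl
  have h := le_nrm_sum hU hy (fun i => (((minpoly (Fx W0) y).coeff i : Fx W0) : Qbar))
    (fun i => ((minpoly (Fx W0) y).coeff i).2) hlt
  rw [hsum, nrm_zero] at h
  have hlc : (minpoly (Fx W0) y).coeff (minpoly (Fx W0) y).natDegree = 1 := minpoly.monic hint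
  simp only [hlc] at h
  have h2 : 0 < nrm p ((1 : Fx W0) : Qbar) * nrm p y ^ (minpoly (Fx W0) y).natDegree := by
    have : ((1 : Fx W0) : Qbar) = 1 := rfl
    rw [this, nrm_one, one_mul]
    exact pow_pos ((nrm_pos_iff p).mpr hy0) _
  exact absurd h (not_le.mpr h2)

end Fermat.Agent.S56.F.K

end
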