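/-
S56 / F / K / KumC : (K2) the different of the Kummer extension `K0(π, α)/K0`:
`|G'(Y)| ≤ |Y|^((p-1)(t+1) + p(p^2-1) - p)`, `t + 1 = p^2+p+1-j`.     Task S56/F-K-KumC.
-/
import Fermat.Agent.S56.F.K.Idx
import Fermat.Agent.S56.F.K.DerB
import Fermat.Agent.S56.F.K.OrthoA

set_option autoImplicit false

noncomputable section

namespace Fermat.Agent.S56.F.K

open Fermat.Agent.S55.Places hiding Fix
open Fermat.Agent.S55.Places renaming Fix → Fx
open Polynomial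
open scoped IntermediateField

variable {p : ℕ} [Fact p.Prime]

/-- PROOF.  `Y(γ) = (γ-1)^a/π^b`, `y = Y(α)`, `ρ = |y|`, `ρ^p = |π|` (`nrm_unif_pow`), `0 < ρ < 1`.
Let `ζ` be a primitive `p`-th root of unity (`cyclo_exists_primitiveRoot`) and
`T = image (fun i => Y(ζ^i α)) (Finset.Ico 1 p)`.  For `0 ≤ i < i' < p`: `ζ^i α ≠ ζ^i' α`
(`IsPrimitiveRoot.pow_inj`, `α ≠ 0`), both are `p`-th roots of `α^p`, so by `nrm_unif_sub_pow`
`|Y(ζ^i α) - Y(ζ^i' α)|^p = |π|^(p^2+p+1-j) = (ρ^(p^2+p+1-j))^p ≠ 0`: the map is injective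
(`#T = p - 1`, `Finset.card_image_of_injOn`), `Y(ζ^i α) ≠ y` for `1 ≤ i < p` and
`|y - Y(ζ^i α)| = ρ^(p^2+p+1-j) =: r` (`pow_left_injective` on nonnegative reals).
(In `nrm_unif_sub_pow` the level hypothesis for `γ = ζ^i α` follows from `γ^p = α^p`.)
`Y(ζ^i α) = g y` with `g ∈ Stb D0 π`, `g α = ζ^i α` (`exists_conj`, `mem_Stb`, `map_div₀`, `map_pow`,
`map_sub`), so it is a root of `minpoly (Fix D0) y` (`aeval_map_of_mem`, `minpoly.aeval`).
`n = p (p^2-1) ≤ natDegree` by `le_natDegree_minpoly` + `nrm_unif_pow'`.  `nrm_derivative_le` gives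
`≤ r^(p-1) ρ^(n - 1 - (p-1))`; rewrite with `pow_mul`, `pow_add`. -/
theorem nrm_derivative_kummer_le {D0 : Subgroup GQ} (hD : D0 ≤ Dq p) (hU : UnramNorm p D0)
    {π α : Qbar} (hπ : π ^ (p ^ 2 - 1) = -(p : Qbar)) {j a b : ℕ} (hj0 : 0 < j)
    (hj : j < p ^ 2 + p) (hlev : nrm p (α ^ p - 1) = nrm p π ^ j) (hab : a * j = 1 + b * p)
    (hx : α ^ p ∈ Fx (Stb D0 π)) :
    nrm p (aeval ((α - 1) ^ a / π ^ b)
        (derivative (minpoly (Fx D0) ((α - 1) ^ a / π ^ b)))) ≤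
      nrm p ((α - 1) ^ a / π ^ b) ^
        ((p - 1) * (p ^ 2 + p + 1 - j) + (p * (p ^ 2 - 1) - p)) := by
  classical
  have hp : p.Prime := Fact.out
  have hr0 := nrm_pi_pos hπ
  have hr1 := nrm_pi_lt_one hπ
  have : NeZero p := ⟨hp.ne_zero⟩
  obtain ⟨ζ, hζ⟩ := cyclo_exists_primitiveRoot p
  set Yf : Qbar → Qbar := fun γ => (γ - 1) ^ a / π ^ b with hYf
  set E : ℕ := p ^ 2 + p + 1 - j with hE
  have hρp : nrm p (Yf α) ^ p = nrm p π := nrm_unif_pow hπ hj0 hj hlev hab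
  have hρ0 : 0 ≤ nrm p (Yf α) := nrm_nonneg p _
  have hρ1 : nrm p (Yf α) ≤ 1 := by
    by_contra hcon
    rw [not_le] at hcon
    have h1 : 1 ≤ nrm p (Yf α) ^ p := one_le_pow₀ hcon.le
    rw [hρp] at h1
    linarith
  have hα0 : α ≠ 0 := by
    rintro rfl
    rw [zero_pow hp.ne_zero, zero_sub, nrm_neg, nrm_one] at hlev
    have := pow_lt_one₀ hr0.le hr1 hj0.ne'
    linarith
  have hpow : ∀ i : ℕ, (ζ ^ i * α) ^ p = α ^ p := by
    intro i
    rw [mul_pow, ← pow_mul, mul_comm i p, pow_mul, hζ.pow_eq_one, one_pow, one_mul]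
  have hlev' : ∀ i : ℕ, nrm p ((ζ ^ i * α) ^ p - 1) = nrm p π ^ j := by
    intro i
    rw [hpow]
    exact hlev
  have hne : ∀ i i' : ℕ, i < p → i' < p → i ≠ i' → ζ ^ i' * α ≠ ζ ^ i * α := by
    intro i i' hi hi' hii h
    exact hii (hζ.pow_inj hi hi' (mul_right_cancel₀ hα0 h).symm)
  have hdist : ∀ i i' : ℕ, i < p → i' < p → i ≠ i' →
      nrm p (Yf (ζ ^ i * α) - Yf (ζ ^ i' * α)) ^ p = nrm p π ^ E := by
    intro i i' hi hi' hii
    exact nrm_unif_sub_pow hπ hj0 hj (hlev' i) hab (by rw [hpow, hpow]) (hne i i' hi hi' hii)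
  have hYne : ∀ i i' : ℕ, i < p → i' < p → i ≠ i' → Yf (ζ ^ i * α) ≠ Yf (ζ ^ i' * α) := by
    intro i i' hi hi' hii h
    have h1 := hdist i i' hi hi' hii
    rw [h, sub_self, nrm_zero, zero_pow hp.ne_zero] at h1
    exact (pow_pos hr0 E).ne h1
  have h0 : ζ ^ 0 * α = α := by rw [pow_zero, one_mul]
  set T : Finset Qbar := (Finset.Ico 1 p).image fun i => Yf (ζ ^ i * α) with hT
  have hcard : T.card = p - 1 := by
    rw [hT, Finset.card_image_of_injOn, Nat.card_Ico]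
    intro i hi i' hi' h
    by_contra hii
    rw [Finset.coe_Ico, Set.mem_Ico] at hi hi'
    exact hYne i i' hi.2 hi'.2 hii h
  have hn : p * (p ^ 2 - 1) ≤ (minpoly (Fx D0) (Yf α)).natDegree :=
    le_natDegree_minpoly hU (nrm_unif_pow' hπ hj0 hj hlev hab)
  have hTprop : ∀ y' ∈ T, y' ≠ Yf α ∧ aeval y' (minpoly (Fx D0) (Yf α)) = 0 ∧
      nrm p (Yf α - y') ≤ nrm p (Yf α) ^ E := by
    intro y' hy'
    obtain ⟨i, hi, rfl⟩ := Finset.mem_image.1 hy'
    rw [Finset.mem_Ico] at hi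
    have hi0 : 0 ≠ i := by omega
    refine ⟨?_, ?_, ?_⟩
    · have := hYne 0 i hp.pos hi.2 hi0
      rw [h0] at this
      exact this.symm
    · obtain ⟨g, hg, hgα⟩ := exists_conj hD hU hπ hj0 hj hlev hab hx (hpow i)
      obtain ⟨hgD, hgπ⟩ := mem_Stb.1 hg
      have hgy : g (Yf α) = Yf (ζ ^ i * α) := by
        simp only [hYf, map_div₀, map_pow, map_sub, map_one, hgα, hgπ]
      rw [← hgy, aeval_map_of_mem _ hgD, minpoly.aeval, map_zero]
    · have h1 := hdist 0 i hp.pos hi.2 hi0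
      rw [h0, ← hρp, ← pow_mul, mul_comm p E, pow_mul] at h1
      exact ((pow_left_inj₀ (nrm_nonneg p _) (pow_nonneg hρ0 _) hp.ne_zero).1 h1).le
  have hmain := nrm_derivative_le hD hρ1 hn T hTprop
  rw [hcard, ← pow_mul, ← pow_add] at hmain
  have he : E * (p - 1) + (p * (p ^ 2 - 1) - 1 - (p - 1)) =
      (p - 1) * E + (p * (p ^ 2 - 1) - p) := by
    have := hp.one_le
    rw [mul_comm]
    omega
  rw [he] at hmain
  exact hmain

end Fermat.Agent.S56.F.K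

end
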