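/-
S56 / F / K / Num : elementary arithmetic for block K.     Task S56/F-K-Num.
-/
import Mathlib

set_option autoImplicit false

namespace Fermat.Agent.S56.F.K

/-- `p = q + 3`, `j ≤ q + 4`: write `p^2+p+1-j ≥ p^2`; the claim follows from
`2p^4 - 3p^3 - p^2 + 2p > p^4 - p^2`, i.e. `p^3 - 3p^2 + 2 > 0`.  (Get rid of the truncated
subtractions first: `obtain ⟨q, rfl⟩ : ∃ q, p = q + 3`, `obtain ⟨m, hm⟩ : ∃ m, p^2+p+1-j = p^2 + m`,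
`p - 1 = q + 2`, ... then `nlinarith` / `ring_nf; positivity`.) -/
theorem num {p j : ℕ} (hp : 3 ≤ p) (hj : j ≤ p + 1) :
    p * (p ^ 2 - 1) * p <
      (p - 1) * ((p - 1) * (p ^ 2 + p + 1 - j) + (p * (p ^ 2 - 1) - p)) := by
  obtain ⟨q, rfl⟩ : ∃ q, p = q + 3 := ⟨p - 3, by omega⟩
  obtain ⟨m, hm⟩ : ∃ m, (q + 3) ^ 2 + (q + 3) + 1 - j = (q + 3) ^ 2 + m :=
    ⟨(q + 3) + 1 - j, by omega⟩
  have h1 : q + 3 - 1 = q + 2 := by omega
  have h2 : (q + 3) ^ 2 - 1 = q ^ 2 + 6 * q + 8 := by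
    have : (q + 3) ^ 2 = q ^ 2 + 6 * q + 8 + 1 := by ring
    omega
  have h3 : (q + 3) * (q ^ 2 + 6 * q + 8) - (q + 3) = (q + 3) * (q ^ 2 + 6 * q + 7) := by
    have : (q + 3) * (q ^ 2 + 6 * q + 8) = (q + 3) * (q ^ 2 + 6 * q + 7) + (q + 3) := by ring
    omega
  rw [hm, h1, h2, h3]
  have h4 : (q + 2) * ((q + 2) * ((q + 3) ^ 2) + (q + 3) * (q ^ 2 + 6 * q + 7)) ≤
      (q + 2) * ((q + 2) * ((q + 3) ^ 2 + m) + (q + 3) * (q ^ 2 + 6 * q + 7)) := by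
    gcongr
    omega
  refine lt_of_lt_of_le ?_ h4
  nlinarith [sq_nonneg q, Nat.zero_le (q ^ 3), Nat.zero_le (q ^ 4), Nat.zero_le q]

/-- Bezout: `j` is invertible mod `p` (e.g. `Nat.exists_mul_emod_eq_one_of_coprime`, or
`Nat.Coprime` + `Nat.ModEq`). -/
theorem exists_ab {p j : ℕ} (hp : p.Prime) (hj : ¬ p ∣ j) : ∃ a b : ℕ, a * j = 1 + b * p := by
  have hcop : Nat.Coprime j p := ((Nat.Prime.coprime_iff_not_dvd hp).2 hj).symm
  obtain ⟨m, -, hm⟩ := Nat.exists_mul_mod_eq_one_of_coprime hcop hp.one_lt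
  refine ⟨m, j * m / p, ?_⟩
  have := Nat.div_add_mod (j * m) p
  rw [hm] at this
  rw [mul_comm m j, mul_comm _ p]
  omega

end Fermat.Agent.S56.F.K
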