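/-
S56 / F / K / Setup : the groups `N1 = D ∩ N ∩ Stab π ∩ Stab α` and `D0 = N1 · I`.   Task S56/F-K-Setup.
Pure group theory + `IsOpenIn` API (`S55/Places/Galois.lean`), `UnramQuot.WI` from `S55/Places/UnramQuot.lean`.
-/
import Fermat.Agent.S56.F.K.Defs

set_option autoImplicit false

noncomputable section

namespace Fermat.Agent.S56.F.K

open Fermat.Agent.S55.Places hiding Fix
open Fermat.Agent.S55.Places renaming Fix → Fx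
open Polynomial
open scoped IntermediateField

variable {p : ℕ} [Fact p.Prime]

/-- `N1 = D ∩ N ∩ Stab π ∩ Stab α`. -/
def N1 (p : ℕ) [Fact p.Prime] (N : Subgroup GQ) (π α : Qbar) : Subgroup GQ :=
  Stb (Stb (Dq p ⊓ N) π) α

theorem N1_le_Dq (N : Subgroup GQ) (π α : Qbar) : N1 p N π α ≤ Dq p :=
  (Stb_le _ _).trans ((Stb_le _ _).trans inf_le_left)

/-- `D0 = N1 · I`. -/
def D0 (p : ℕ) [Fact p.Prime] (N : Subgroup GQ) (π α : Qbar) : Subgroup GQ :=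
  UnramQuot.WI p (N1 p N π α) (N1_le_Dq N π α)

variable {N : Subgroup GQ} {π α : Qbar}

theorem mem_N1 {g : GQ} : g ∈ N1 p N π α ↔ g ∈ Dq p ∧ g ∈ N ∧ g π = π ∧ g α = α := by
  unfold N1
  rw [mem_Stb, mem_Stb, Subgroup.mem_inf]
  tauto

theorem mem_D0 {g : GQ} : g ∈ D0 p N π α ↔ ∃ w ∈ N1 p N π α, w⁻¹ * g ∈ Iq p := Iff.rfl

theorem N1_le_D0 : N1 p N π α ≤ D0 p N π α :=
  fun w hw => ⟨w, hw, by simp [(Iq p).one_mem]⟩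

theorem Iq_le_D0 : Iq p ≤ D0 p N π α :=
  fun i hi => ⟨1, (N1 p N π α).one_mem, by simpa using hi⟩

theorem D0_le_Dq : D0 p N π α ≤ Dq p := by
  rintro g ⟨w, hw, hi⟩
  have := (Dq p).mul_mem (N1_le_Dq N π α hw) (Iq_le_Dq p hi)
  simpa using this

/-- general: `W` open in `H`, `W ≤ H' ≤ H` ⟹ `W` open in `H'` (`IsOpenIn.inf_left`, `inf_eq_right`). -/
theorem isOpenIn_of_le_of_le {H H' W : Subgroup GQ} (h : IsOpenIn H W) (h1 : W ≤ H')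
    (h2 : H' ≤ H) : IsOpenIn H' W := by
  have := h.inf_left H' h2
  rwa [inf_eq_right.2 h1] at this

/-- `IsOpenIn.trans`, `isOpenIn_Stb`. -/
theorem isOpenIn_N1 (hN : IsOpenIn (Dq p) (Dq p ⊓ N)) : IsOpenIn (Dq p) (N1 p N π α) :=
  (hN.trans (isOpenIn_Stb _ _)).trans (isOpenIn_Stb _ _)

/-- `IsOpenIn.of_le`. -/
theorem isOpenIn_D0 (hN : IsOpenIn (Dq p) (Dq p ⊓ N)) : IsOpenIn (Dq p) (D0 p N π α) :=
  (isOpenIn_N1 hN).of_le N1_le_D0 D0_le_Dq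

theorem isOpenIn_D0_N1 (hN : IsOpenIn (Dq p) (Dq p ⊓ N)) :
    IsOpenIn (D0 p N π α) (N1 p N π α) :=
  isOpenIn_of_le_of_le (isOpenIn_N1 hN) N1_le_D0 D0_le_Dq

/-- `D0 ∩ N = N1`.  PROOF of `←`: `g = w i`, `w ∈ N1`, `i = w⁻¹ g ∈ I ∩ N`, so `i` fixes `π` and `α`. -/
theorem mem_N1_iff (fixπ : ∀ s ∈ Iq p, s ∈ N → s π = π) (fixα : ∀ s ∈ Iq p, s ∈ N → s α = α) :
    ∀ g, g ∈ N1 p N π α ↔ g ∈ D0 p N π α ∧ g ∈ N := by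
  intro g
  constructor
  · intro hg
    exact ⟨N1_le_D0 hg, (mem_N1.1 hg).2.1⟩
  · rintro ⟨⟨w, hw, hi⟩, hgN⟩
    obtain ⟨hwD, hwN, hwπ, hwα⟩ := mem_N1.1 hw
    have hiN : w⁻¹ * g ∈ N := N.mul_mem (N.inv_mem hwN) hgN
    have e : g = w * (w⁻¹ * g) := by group
    rw [e]
    exact (N1 p N π α).mul_mem hw
      (mem_N1.2 ⟨Iq_le_Dq p hi, hiN, fixπ _ hi hiN, fixα _ hi hiN⟩)

/-- `g = w i' = (w i' w⁻¹) w`, `Iq_conj_mem`. -/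
theorem D0_tot : ∀ g ∈ D0 p N π α, ∃ i ∈ Iq p, i⁻¹ * g ∈ N1 p N π α := by
  rintro g ⟨w, hw, hi⟩
  refine ⟨w * (w⁻¹ * g) * w⁻¹, Iq_conj_mem p (N1_le_Dq N π α hw) hi, ?_⟩
  have e : (w * (w⁻¹ * g) * w⁻¹)⁻¹ * g = w := by group
  rw [e]
  exact hw

/-- `g ∈ D0`, `g π = π`: `g = w i`, `w π = π` so `i π = π`, `i (α^p) = α^p`, `w α = α`. -/
theorem pow_mem_Fix (fixx : ∀ s ∈ Iq p, s π = π → s (α ^ p) = α ^ p) :
    α ^ p ∈ Fx (Stb (D0 p N π α) π) := by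
  rw [mem_Fix_iff]
  intro g hg
  obtain ⟨⟨w, hw, hi⟩, hgπ⟩ := mem_Stb.1 hg
  obtain ⟨hwD, hwN, hwπ, hwα⟩ := mem_N1.1 hw
  have hwinv : w⁻¹ π = π := by
    conv_lhs => rw [← hwπ]
    rw [← AlgEquiv.mul_apply, inv_mul_cancel, AlgEquiv.one_apply]
  have hiπ : (w⁻¹ * g) π = π := by rw [AlgEquiv.mul_apply, hgπ, hwinv]
  have h1 := fixx _ hi hiπ
  have e : g = w * (w⁻¹ * g) := by group
  rw [e, AlgEquiv.mul_apply, h1, map_pow, hwα]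

theorem N1_le_WN : N1 p N π α ≤ Stb (Stb (D0 p N π α) π) α := by
  intro g hg
  obtain ⟨_, _, h3, h4⟩ := mem_N1.1 hg
  exact mem_Stb.2 ⟨mem_Stb.2 ⟨N1_le_D0 hg, h3⟩, h4⟩

theorem isOpenIn_D0_WN : IsOpenIn (D0 p N π α) (Stb (Stb (D0 p N π α) π) α) :=
  (isOpenIn_Stb _ _).trans (isOpenIn_Stb _ _)

theorem isOpenIn_WN_N1 (hN : IsOpenIn (Dq p) (Dq p ⊓ N)) :
    IsOpenIn (Stb (Stb (D0 p N π α) π) α) (N1 p N π α) :=
  isOpenIn_of_le_of_le (isOpenIn_D0_N1 hN) N1_le_WN ((Stb_le _ _).trans (Stb_le _ _))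

end Fermat.Agent.S56.F.K

end
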