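/-
S56 / F / K / TotRamA : `I ≤ D0 ≤ D`, `DM ≤ D0` with `D0 = I · DM`: no residue extension, successive
approximation.   Task S56/F-K-TotRamA.
-/
import Fermat.Agent.S56.F.K.Defs
import Fermat.Agent.S55.Places.Unram
import Fermat.Agent.S55.Places.Residue

set_option autoImplicit false

noncomputable section

namespace Fermat.Agent.S56.F.K

open Fermat.Agent.S55.Places hiding Fix
open Fermat.Agent.S55.Places renaming Fix → Fx
open Polynomial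
open scoped IntermediateField

variable {p : ℕ} [Fact p.Prime]

/-- PROOF: `nrm_of_unramified (ℚ⟮c⟯)` (`cyclo_finiteDimensional_adjoin`,
`cyclo_mem_fixingSubgroup_adjoin`, `mem_Fix_iff`). -/
theorem unramNorm_of_Iq_le {W0 : Subgroup GQ} (hI : Iq p ≤ W0) : UnramNorm p W0 := by
  intro c hc h0
  have := cyclo_finiteDimensional_adjoin c
  exact nrm_of_unramified (q := p) (ℚ⟮c⟯ : NF)
    (fun σ hσ => cyclo_mem_fixingSubgroup_adjoin (mem_Fix_iff.1 hc σ (hI hσ)))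
    (IntermediateField.mem_adjoin_simple_self ℚ c) h0

/-- (RES) no residue extension.  PROOF: if `|z| < 1` take `c = 0`.  Otherwise `|z| = 1`;
`exists_residue_degree (ℚ⟮z⟯)` gives `f > 0` with `|z^(p^f) - z| < 1`; `exists_root_near` gives `ζ`,
`ζ^(p^f-1) = 1`, `|z - ζ| < 1`.  `ζ ∈ Fix D0`: `g = i m`, `i ∈ I`, `m = i⁻¹ g ∈ DM`; `m z = z` so
`|m ζ - ζ| ≤ max |m (ζ - z)| |z - ζ| < 1` (`m ∈ D` since `m = i⁻¹ g`), hence `m ζ = ζ`
(`eq_of_nrm_sub_lt_one`, `Roots_coprime`); `i ζ = ζ` by `map_root_of_mem_Iq`. -/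
theorem exists_residue_rep {D0 DM : Subgroup GQ} (hD0 : D0 ≤ Dq p)
    (htot : ∀ g ∈ D0, ∃ i ∈ Iq p, i⁻¹ * g ∈ DM) {z : Qbar} (hz : z ∈ Fx DM)
    (h1 : nrm p z ≤ 1) : ∃ c ∈ Fx D0, nrm p c ≤ 1 ∧ nrm p (z - c) < 1 := by
  have hzfix := mem_Fix_iff.1 hz
  rcases lt_or_eq_of_le h1 with hlt | h1'
  · exact ⟨0, zero_mem _, by rw [nrm_zero]; exact zero_le_one, by rw [sub_zero]; exact hlt⟩
  have hfd := cyclo_finiteDimensional_adjoin z
  obtain ⟨f, hf, hfj⟩ := exists_residue_degree p (IntermediateField.adjoin ℚ {z} : NF)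
  have h2 : nrm p (z ^ (p ^ f) - z) < 1 :=
    (hfj f).2 dvd_rfl z (IntermediateField.mem_adjoin_simple_self ℚ z) h1
  obtain ⟨ζ, hζ, hzζ⟩ := exists_root_near hf h1' h2
  have hcop : Nat.Coprime (p ^ f - 1) p := Roots_coprime hf
  have hm0 : p ^ f - 1 ≠ 0 := Roots_pos_of_coprime hcop
  refine ⟨ζ, mem_Fix_iff.2 fun g hg => ?_, (nrm_eq_one_of_pow_eq_one p hm0 hζ).le, hzζ⟩
  obtain ⟨i, hi, him⟩ := htot g hg
  have hgD : g ∈ Dq p := hD0 hg
  have hgz : g z = i z := by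
    have h3 := hzfix _ him
    rw [AlgEquiv.mul_apply] at h3
    have h4 := congrArg i h3
    rwa [← AlgEquiv.mul_apply, mul_inv_cancel, AlgEquiv.one_apply] at h4
  have h5 : nrm p (g z - z) < 1 := by
    rw [hgz]
    exact ((mem_Iq_iff p).1 hi).2 z h1
  have h6 : nrm p (g ζ - g z) < 1 := by
    rw [← map_sub, nrm_map_of_mem_Dq p hgD, nrm_sub_comm]
    exact hzζ
  have h7 : nrm p (g ζ - ζ) < 1 := by
    have e : g ζ - ζ = (g ζ - g z) + ((g z - z) + (z - ζ)) := by ring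
    rw [e]
    exact lt_of_le_of_lt (nrm_add_le_max p _ _)
      (max_lt h6 (lt_of_le_of_lt (nrm_add_le_max p _ _) (max_lt h5 hzζ)))
  exact eq_of_nrm_sub_lt_one hcop (by rw [← map_pow, hζ, map_one]) hζ h7

/-- an element of `Fix DM` of norm `< 1` has norm `≤ |ϖ|`. -/
theorem TotRamA_le_of_lt_one {DM : Subgroup GQ} {ϖ : Qbar} (hϖ0 : ϖ ≠ 0)
    (hϖ1 : nrm p ϖ < 1) (hunif : ∀ x ∈ Fx DM, x ≠ 0 → ∃ n : ℤ, nrm p x = nrm p ϖ ^ n)
    {x : Qbar} (hx : x ∈ Fx DM) (h1 : nrm p x < 1) : nrm p x ≤ nrm p ϖ := by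
  have hpos : 0 < nrm p ϖ := (nrm_pos_iff p).2 hϖ0
  by_cases h0 : x = 0
  · rw [h0, nrm_zero]; exact hpos.le
  obtain ⟨n, hn⟩ := hunif x hx h0
  have hn0 : 0 < n := by
    by_contra hcon
    rw [not_lt] at hcon
    have h2 : 1 ≤ nrm p ϖ ^ n := by
      obtain ⟨m, rfl⟩ : ∃ m : ℕ, n = -(m : ℤ) := ⟨(-n).toNat, by omega⟩
      rw [zpow_neg, zpow_natCast]
      exact (one_le_inv₀ (by positivity)).2 (pow_le_one₀ hpos.le hϖ1.le)
    rw [← hn] at h2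
    linarith
  obtain ⟨m, rfl⟩ : ∃ m : ℕ, n = ((m + 1 : ℕ) : ℤ) := ⟨(n - 1).toNat, by omega⟩
  rw [hn, zpow_natCast, pow_succ]
  exact mul_le_of_le_one_left hpos.le (pow_le_one₀ hpos.le hϖ1.le)

/-- successive approximation.  PROOF: induction on `e`: `∃ c, |z - ∑_{i<e} c i ϖ^i| ≤ |ϖ|^e`.
Step: `w = (z - ∑..)/ϖ^e ∈ Fix DM` is integral, `exists_residue_rep` gives `c e` with `|w - c e| < 1`;
by `hunif` a norm `< 1` is `≤ |ϖ|`.  (`Fix D0 ≤ Fix DM` by `Fix_anti`.) -/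
theorem exists_approx {D0 DM : Subgroup GQ} (hD0 : D0 ≤ Dq p) (hle : DM ≤ D0)
    (htot : ∀ g ∈ D0, ∃ i ∈ Iq p, i⁻¹ * g ∈ DM) {ϖ : Qbar} (hϖ : ϖ ∈ Fx DM) (hϖ0 : ϖ ≠ 0)
    (hϖ1 : nrm p ϖ < 1) (hunif : ∀ x ∈ Fx DM, x ≠ 0 → ∃ n : ℤ, nrm p x = nrm p ϖ ^ n)
    (e : ℕ) {z : Qbar} (hz : z ∈ Fx DM) (h1 : nrm p z ≤ 1) :
    ∃ c : ℕ → Qbar, (∀ i, c i ∈ Fx D0 ∧ nrm p (c i) ≤ 1) ∧
      nrm p (z - ∑ i ∈ Finset.range e, c i * ϖ ^ i) ≤ nrm p ϖ ^ e := by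
  have hpos : 0 < nrm p ϖ := (nrm_pos_iff p).2 hϖ0
  have hle' : Fx D0 ≤ Fx DM := Fix_anti hle
  induction e with
  | zero =>
    exact ⟨fun _ => 0, fun _ => ⟨zero_mem _, by rw [nrm_zero]; exact zero_le_one⟩, by simpa using h1⟩
  | succ k ih =>
    obtain ⟨w, hw, hk⟩ := ih
    set r : Qbar := z - ∑ i ∈ Finset.range k, w i * ϖ ^ i with hr
    have hrM : r ∈ Fx DM := by
      apply sub_mem hz
      apply sum_mem
      intro i _
      exact mul_mem (hle' (hw i).1) (pow_mem hϖ i)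
    have hqM : r / ϖ ^ k ∈ Fx DM := div_mem hrM (pow_mem hϖ k)
    have hq1 : nrm p (r / ϖ ^ k) ≤ 1 := by
      rw [nrm_div, nrm_pow]
      exact div_le_one_of_le₀ hk (by positivity)
    obtain ⟨v, hv, hv1, hv2⟩ := exists_residue_rep hD0 htot hqM hq1
    have hvM : r / ϖ ^ k - v ∈ Fx DM := sub_mem hqM (hle' hv)
    have h2 := TotRamA_le_of_lt_one hϖ0 hϖ1 hunif hvM hv2
    refine ⟨fun i => if i = k then v else w i, ?_, ?_⟩
    · intro i
      by_cases hi : i = k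
      · simp only [hi, if_true]; exact ⟨hv, hv1⟩
      · simp only [hi, if_false]; exact hw i
    · rw [Finset.sum_range_succ]
      have h3 : ∑ i ∈ Finset.range k, (if i = k then v else w i) * ϖ ^ i
          = ∑ i ∈ Finset.range k, w i * ϖ ^ i := by
        apply Finset.sum_congr rfl
        intro i hi
        rw [if_neg (Finset.mem_range.1 hi).ne]
      rw [h3]
      simp only [if_true]
      have h4 : z - (∑ i ∈ Finset.range k, w i * ϖ ^ i + v * ϖ ^ k)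
          = (r / ϖ ^ k - v) * ϖ ^ k := by
        rw [sub_mul, div_mul_cancel₀ _ (pow_ne_zero k hϖ0), hr]; ring
      rw [h4, nrm_mul, nrm_pow, pow_succ, mul_comm]
      exact mul_le_mul_of_nonneg_left h2 (by positivity)

end Fermat.Agent.S56.F.K

end
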