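/-
S56 / F / K / TotRamB : the counting argument `[D0:DM] ≤ e`.   Task S56/F-K-TotRamB.
-/
import Fermat.Agent.S56.F.K.IndexA

set_option autoImplicit false

noncomputable section

namespace Fermat.Agent.S56.F.K

open Fermat.Agent.S55.Places hiding Fix
open Fermat.Agent.S55.Places renaming Fix → Fx
open Polynomial
open scoped IntermediateField

variable {p : ℕ} [Fact p.Prime]

/-- the inclusion `O_{D0} → O_{DM}` for `DM ≤ D0`. -/
def TotRamB_incl {D0 DM : Subgroup GQ} (h : DM ≤ D0) : ringOf p D0 →+* ringOf p DM where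
  toFun x := ⟨⟨((x : Fx D0) : Qbar), Fix_anti h (x : Fx D0).2⟩, x.2⟩
  map_one' := rfl
  map_mul' _ _ := rfl
  map_zero' := rfl
  map_add' _ _ := rfl

theorem TotRamB_incl_coe {D0 DM : Subgroup GQ} (h : DM ≤ D0) (x : ringOf p D0) :
    (((TotRamB_incl h x : ringOf p DM) : Fx DM) : Qbar) = ((x : Fx D0) : Qbar) := rfl

/-- counting.  PROOF: `card_ringOf_quot` (a = 1) for `DM` and `D0` (both open in `Dq p`,
`IsOpenIn.trans`): `#(O_DM / p) = p^[D:DM]`, `#(O_D0 / p) = p^[D:D0]`, `[D:DM] = [D:D0] [D0:DM]`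
(`idx_mul`).  The map `(Fin e → O_D0 / p) → O_DM / p`, `c ↦ mk (∑ out (c i) ϖ^i)` is surjective by
`happ` (`mem_span_q_pow_iff`: `y ∈ (p) ↔ |y| ≤ 1/p`; changing `c i` by an element of norm `≤ 1/p`
changes the sum by such an element).  So `p^([D:D0] [D0:DM]) ≤ p^([D:D0] e)`, and `[D:D0] ≠ 0`
(`IsOpenIn.finiteIndex`). -/
theorem index_le_of_approx {D0 DM : Subgroup GQ} (hD0 : IsOpenIn (Dq p) D0)
    (hDM : IsOpenIn D0 DM) {e : ℕ} {ϖ : Qbar} (hϖ : ϖ ∈ Fx DM) (hϖ1 : nrm p ϖ ≤ 1)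
    (happ : ∀ z ∈ Fx DM, nrm p z ≤ 1 → ∃ c : ℕ → Qbar, (∀ i, c i ∈ Fx D0 ∧ nrm p (c i) ≤ 1) ∧
      nrm p (z - ∑ i ∈ Finset.range e, c i * ϖ ^ i) ≤ (p : ℝ)⁻¹) :
    (DM.subgroupOf D0).index ≤ e := by
  classical
  have hp : p.Prime := Fact.out
  have hDMq : IsOpenIn (Dq p) DM := hD0.trans hDM
  set I0 : Ideal (ringOf p D0) := Ideal.span {(p : ringOf p D0) ^ 1} with hI0
  set IM : Ideal (ringOf p DM) := Ideal.span {(p : ringOf p DM) ^ 1} with hIM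
  have hc0 : Nat.card (ringOf p D0 ⧸ I0) = p ^ (1 * (D0.subgroupOf (Dq p)).index) :=
    card_ringOf_quot hD0 1
  have hcM : Nat.card (ringOf p DM ⧸ IM) = p ^ (1 * (DM.subgroupOf (Dq p)).index) :=
    card_ringOf_quot hDMq 1
  have hfin0 : Finite (ringOf p D0 ⧸ I0) :=
    Nat.finite_of_card_ne_zero (by rw [hc0]; exact pow_ne_zero _ hp.ne_zero)
  set ι := TotRamB_incl (p := p) hDM.1 with hι
  have hle : I0 ≤ IM.comap ι := by
    rw [hI0, Ideal.span_le]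
    intro x hx
    rw [Set.mem_singleton_iff] at hx
    subst hx
    show ι ((p : ringOf p D0) ^ 1) ∈ IM
    rw [map_pow, map_natCast]
    exact Ideal.subset_span rfl
  let ψ : ringOf p D0 ⧸ I0 →+* ringOf p DM ⧸ IM := Ideal.quotientMap IM ι hle
  let ϖ' : ringOf p DM := ⟨⟨ϖ, hϖ⟩, hϖ1⟩
  let φ : (Fin e → ringOf p D0 ⧸ I0) → ringOf p DM ⧸ IM :=
    fun c => ∑ i : Fin e, ψ (c i) * (Ideal.Quotient.mk IM ϖ') ^ (i : ℕ)
  have hsurj : Function.Surjective φ := by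
    intro z'
    obtain ⟨z, rfl⟩ := Ideal.Quotient.mk_surjective z'
    obtain ⟨c, hc, hz⟩ := happ ((z : Fx DM) : Qbar) (z : Fx DM).2 z.2
    refine ⟨fun i => Ideal.Quotient.mk I0 ⟨⟨c i, (hc i).1⟩, (hc i).2⟩, ?_⟩
    have h1 : φ (fun i => Ideal.Quotient.mk I0 ⟨⟨c i, (hc i).1⟩, (hc i).2⟩)
        = Ideal.Quotient.mk IM (∑ i : Fin e, ι ⟨⟨c i, (hc i).1⟩, (hc i).2⟩ * ϖ' ^ (i : ℕ)) := by
      simp only [φ, ψ, Ideal.quotientMap_mk, map_sum, map_mul, map_pow]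
    rw [h1, eq_comm, Ideal.Quotient.eq, hIM, RingAux.mem_span_q_pow_iff, pow_one]
    have h2 : (((z - ∑ i : Fin e, ι ⟨⟨c i, (hc i).1⟩, (hc i).2⟩ * ϖ' ^ (i : ℕ) : ringOf p DM) :
        Fx DM) : Qbar) = ((z : Fx DM) : Qbar) - ∑ i ∈ Finset.range e, c i * ϖ ^ i := by
      rw [← Fin.sum_univ_eq_sum_range (fun i => c i * ϖ ^ i) e]
      push_cast
      rfl
    rw [h2]
    exact hz
  have hcard : Nat.card (ringOf p DM ⧸ IM) ≤ Nat.card (Fin e → ringOf p D0 ⧸ I0) :=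
    Nat.card_le_card_of_surjective φ hsurj
  rw [Nat.card_fun, Nat.card_eq_fintype_card (α := Fin e), Fintype.card_fin, hc0, hcM, ← pow_mul,
    one_mul, one_mul] at hcard
  have h3 : (DM.subgroupOf (Dq p)).index ≤ (D0.subgroupOf (Dq p)).index * e :=
    (Nat.pow_le_pow_iff_right hp.one_lt).1 hcard
  rw [← idx_mul hD0.1 hDM.1] at h3
  exact Nat.le_of_mul_le_mul_left h3 (Nat.pos_of_ne_zero hD0.finiteIndex)

end Fermat.Agent.S56.F.K

end
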