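/-
S56 / F / K / TotRamC : `I ≤ D0 ≤ D` open, `DM ≤ D0` open with `D0 = I · DM`.  Then `Fix DM / Fix D0` is
totally ramified: a uniformiser `ϖ` of `Fix DM` satisfies `|ϖ|^[D0:DM] = 1/p`.   Task S56/F-K-TotRamC.
-/
import Fermat.Agent.S56.F.K.TotRamA
import Fermat.Agent.S56.F.K.TotRamB

set_option autoImplicit false

noncomputable section

namespace Fermat.Agent.S56.F.K

open Fermat.Agent.S55.Places hiding Fix
open Fermat.Agent.S55.Places renaming Fix → Fx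
open Polynomial
open scoped IntermediateField

variable {p : ℕ} [Fact p.Prime]

/-- (TR) totally ramified.  PROOF: `hunif` for `x = p`: `1/p = |ϖ|^e`, `e : ℤ`, `e > 0` because
`|ϖ| < 1`; so `e : ℕ`.  `e ∣ [D0:DM]` (`dvd_idx`, `unramNorm_of_Iq_le`), `[D0:DM] ≠ 0`
(`IsOpenIn.finiteIndex`), `[D0:DM] ≤ e` (`index_le_of_approx` + `exists_approx`). -/
theorem nrm_uniformizer_pow {D0 DM : Subgroup GQ} (hD0 : IsOpenIn (Dq p) D0) (hI : Iq p ≤ D0)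
    (hDM : IsOpenIn D0 DM) (htot : ∀ g ∈ D0, ∃ i ∈ Iq p, i⁻¹ * g ∈ DM) {ϖ : Qbar}
    (hϖ : ϖ ∈ Fx DM) (hϖ0 : ϖ ≠ 0) (hϖ1 : nrm p ϖ < 1)
    (hunif : ∀ x ∈ Fx DM, x ≠ 0 → ∃ n : ℤ, nrm p x = nrm p ϖ ^ n) :
    nrm p ϖ ^ (DM.subgroupOf D0).index = (p : ℝ)⁻¹ := by
  have hp1 : (1 : ℝ) < p := by exact_mod_cast (Fact.out : p.Prime).one_lt
  have hp0 : (p : Qbar) ≠ 0 := by exact_mod_cast (Fact.out : p.Prime).ne_zero
  have hpos : 0 < nrm p ϖ := (nrm_pos_iff p).2 hϖ0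
  obtain ⟨n, hn⟩ := hunif (p : Qbar) (natCast_mem _ p) hp0
  rw [nrm_natCast_self] at hn
  have hn0 : 0 < n := by
    by_contra hcon
    rw [not_lt] at hcon
    have h1 : 1 ≤ nrm p ϖ ^ n := by
      obtain ⟨m, rfl⟩ : ∃ m : ℕ, n = -(m : ℤ) := ⟨(-n).toNat, by omega⟩
      rw [zpow_neg, zpow_natCast]
      exact (one_le_inv₀ (by positivity)).2 (pow_le_one₀ hpos.le hϖ1.le)
    rw [← hn] at h1
    have : (p : ℝ)⁻¹ < 1 := inv_lt_one_of_one_lt₀ hp1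
    linarith
  obtain ⟨e, rfl⟩ : ∃ e : ℕ, n = (e : ℤ) := ⟨n.toNat, by omega⟩
  rw [zpow_natCast] at hn
  have hdvd : e ∣ (DM.subgroupOf D0).index :=
    dvd_idx hD0.1 (unramNorm_of_Iq_le hI) hDM hϖ hn.symm
  have hle : (DM.subgroupOf D0).index ≤ e := by
    apply index_le_of_approx hD0 hDM hϖ hϖ1.le
    intro z hz h1
    obtain ⟨c, hc, hc'⟩ := exists_approx hD0.1 hDM.1 htot hϖ hϖ0 hϖ1 hunif e hz h1
    exact ⟨c, hc, by rw [hn]; exact hc'⟩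
  have heq : e = (DM.subgroupOf D0).index :=
    le_antisymm (Nat.le_of_dvd (Nat.pos_of_ne_zero hDM.finiteIndex) hdvd) hle
  rw [← heq, hn]

end Fermat.Agent.S56.F.K

end
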