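/-
S56 / F / K / OrthoB : (K0) expansions `z = ∑ c i y^i` in a totally ramified extension.
Task S56/F-K-OrthoB.
-/
import Fermat.Agent.S56.F.K.OrthoA

set_option autoImplicit false

noncomputable section

namespace Fermat.Agent.S56.F.K

open Fermat.Agent.S55.Places hiding Fix
open Fermat.Agent.S55.Places renaming Fix → Fx
open Polynomial
open scoped IntermediateField

variable {p : ℕ} [Fact p.Prime]

/-- (K0, expansion).  PROOF: by `le_nrm_sum` the `y^i`, `i < n`, are linearly independent over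
`Fix W0` in `Fix W1`, which has dimension `n` (`IsOpenIn.relfinrank_eq`,
`IntermediateField.relfinrank_eq_finrank_of_le`, `Fix_anti`); so they are a basis
(`basisOfLinearIndependentOfCardEqFinrank` or `LinearIndependent.span_eq_top_of_card_eq_finrank`). -/
theorem exists_expansion {W0 W1 : Subgroup GQ} (hU : UnramNorm p W0) (h : IsOpenIn W0 W1)
    {y : Qbar} (hy1 : y ∈ Fx W1) (hy : nrm p y ^ (W1.subgroupOf W0).index = (p : ℝ)⁻¹)
    {z : Qbar} (hz : z ∈ Fx W1) :
    ∃ c : ℕ → Qbar, (∀ i, c i ∈ Fx W0) ∧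
      z = ∑ i ∈ Finset.range (W1.subgroupOf W0).index, c i * y ^ i := by
  classical
  set n := (W1.subgroupOf W0).index with hn
  have hp1 : (1 : ℝ) < p := by exact_mod_cast (Fact.out : p.Prime).one_lt
  have hn0 : 0 < n := by
    rcases Nat.eq_zero_or_pos n with h0 | h0
    · rw [h0, pow_zero] at hy
      have : (p : ℝ) = 1 := by rw [← inv_inv (p : ℝ), ← hy, inv_one]
      exact absurd this hp1.ne'
    · exact h0
  have hy0 : y ≠ 0 := by
    rintro rfl
    rw [nrm_zero, zero_pow hn0.ne'] at hy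
    have : (0 : ℝ) < (p : ℝ)⁻¹ := by positivity
    exact this.ne hy
  have hle : Fx W0 ≤ Fx W1 := Fix_anti h.1
  have hfr : Module.finrank (Fx W0) (IntermediateField.extendScalars hle) = n := by
    rw [← IntermediateField.relfinrank_eq_finrank_of_le hle, h.relfinrank_eq]
  have hfd : FiniteDimensional (Fx W0) (IntermediateField.extendScalars hle) :=
    Module.finite_of_finrank_pos (hfr ▸ hn0)
  let v : Fin n → IntermediateField.extendScalars hle :=
    fun i => ⟨y ^ (i : ℕ), pow_mem (show y ∈ IntermediateField.extendScalars hle from hy1) _⟩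
  have hcoe : ∀ g : Fin n → Fx W0,
      ((∑ j, g j • v j : IntermediateField.extendScalars hle) : Qbar)
        = ∑ j : Fin n, ((g j : Fx W0) : Qbar) * y ^ (j : ℕ) := by
    intro g
    rw [AddSubmonoidClass.coe_finsetSum]
    rfl
  have hli : LinearIndependent (Fx W0) v := by
    rw [Fintype.linearIndependent_iff]
    intro g hg i
    have h1 : ∑ j : Fin n, ((g j : Fx W0) : Qbar) * y ^ (j : ℕ) = 0 := by
      rw [← hcoe g, hg]
      rfl
    let c : ℕ → Qbar := fun j => if hj : j < n then ((g ⟨j, hj⟩ : Fx W0) : Qbar) else 0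
    have hc : ∀ j, c j ∈ Fx W0 := by
      intro j
      by_cases hj : j < n
      · simp only [c, dif_pos hj]
        exact (g ⟨j, hj⟩).2
      · simp only [c, dif_neg hj]
        exact zero_mem _
    have h2 : ∑ j ∈ Finset.range n, c j * y ^ j = 0 := by
      rw [Finset.sum_range, ← h1]
      refine Finset.sum_congr rfl fun j _ => ?_
      simp only [c, dif_pos j.2]
    have h3 := le_nrm_sum hU hy c hc i.2
    rw [h2, nrm_zero] at h3
    have h4 : 0 < nrm p y ^ (i : ℕ) := pow_pos ((nrm_pos_iff p).mpr hy0) _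
    have h5 : nrm p (c i) = 0 := by
      have h6 := nrm_nonneg p (c i)
      nlinarith
    rw [nrm_eq_zero_iff] at h5
    simp only [c, dif_pos i.2] at h5
    exact Subtype.ext h5
  have hspan := hli.span_eq_top_of_card_eq_finrank' (by rw [Fintype.card_fin, hfr])
  have hzm : (⟨z, hz⟩ : IntermediateField.extendScalars hle) ∈
      Submodule.span (Fx W0) (Set.range v) := by
    rw [hspan]
    exact Submodule.mem_top
  obtain ⟨g, hg⟩ := (Submodule.mem_span_range_iff_exists_fun (Fx W0)).mp hzm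
  refine ⟨fun j => if hj : j < n then ((g ⟨j, hj⟩ : Fx W0) : Qbar) else 0, ?_, ?_⟩
  · intro j
    by_cases hj : j < n
    · simp only [dif_pos hj]
      exact (g ⟨j, hj⟩).2
    · simp only [dif_neg hj]
      exact zero_mem _
  · have h1 := congrArg (fun t : IntermediateField.extendScalars hle => (t : Qbar)) hg
    simp only [hcoe] at h1
    rw [Finset.sum_range, ← h1]
    refine Finset.sum_congr rfl fun j _ => ?_
    simp only [dif_pos j.2]

/-- (K0, integral expansion): `O_{W1} = O_{W0}[y]`.  PROOF: `exists_expansion`, put `c i = 0` for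
`i ≥ n`; for `i < n`: `|c i| |y|^i ≤ |z| ≤ 1` and `|y|^i > |y|^n = 1/p`, so `|c i| = p^k < p`,
`k ≤ 0`. -/
theorem exists_integral_expansion {W0 W1 : Subgroup GQ} (hU : UnramNorm p W0)
    (h : IsOpenIn W0 W1) {y : Qbar} (hy1 : y ∈ Fx W1)
    (hy : nrm p y ^ (W1.subgroupOf W0).index = (p : ℝ)⁻¹) {z : Qbar} (hz : z ∈ Fx W1)
    (hz1 : nrm p z ≤ 1) :
    ∃ c : ℕ → Qbar, (∀ i, c i ∈ Fx W0 ∧ nrm p (c i) ≤ 1) ∧
      z = ∑ i ∈ Finset.range (W1.subgroupOf W0).index, c i * y ^ i := by
  classical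
  obtain ⟨c, hc, hzc⟩ := exists_expansion hU h hy1 hy hz
  set n := (W1.subgroupOf W0).index with hn
  have hp1 : (1 : ℝ) < p := by exact_mod_cast (Fact.out : p.Prime).one_lt
  have hp0 : (0 : ℝ) < p := by linarith
  have hn0 : n ≠ 0 := by
    intro h0
    rw [h0, pow_zero] at hy
    have : (p : ℝ) = 1 := by rw [← inv_inv (p : ℝ), ← hy, inv_one]
    exact absurd this hp1.ne'
  have hylt : nrm p y < 1 := by
    by_contra hge
    push Not at hge
    have h1 : 1 ≤ nrm p y ^ n := one_le_pow₀ hge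
    rw [hy] at h1
    have h2 : (p : ℝ)⁻¹ < 1 := inv_lt_one_of_one_lt₀ hp1
    linarith
  have hy0 : 0 < nrm p y := by
    rcases (nrm_nonneg p y).lt_or_eq with h0 | h0
    · exact h0
    · rw [← h0, zero_pow hn0] at hy
      have : (0 : ℝ) < (p : ℝ)⁻¹ := by positivity
      exact absurd hy this.ne
  refine ⟨fun i => if i < n then c i else 0, ?_, ?_⟩
  · intro i
    by_cases hi : i < n
    · simp only [if_pos hi]
      refine ⟨hc i, ?_⟩
      by_cases hci : c i = 0
      · rw [hci, nrm_zero]; exact zero_le_one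
      obtain ⟨k, hk⟩ := hU (c i) (hc i) hci
      have h1 := le_nrm_sum hU hy c hc hi
      rw [← hzc] at h1
      have h2 : nrm p y ^ n < nrm p y ^ i := pow_lt_pow_right_of_lt_one₀ hy0 hylt hi
      rw [hy] at h2
      rw [hk] at h1 ⊢
      have hpk : (0 : ℝ) < (p : ℝ) ^ k := zpow_pos hp0 k
      have h3 : (p : ℝ) ^ k * (p : ℝ)⁻¹ < 1 := by
        calc (p : ℝ) ^ k * (p : ℝ)⁻¹ < (p : ℝ) ^ k * nrm p y ^ i := by
              exact mul_lt_mul_of_pos_left h2 hpk
          _ ≤ nrm p z := h1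
          _ ≤ 1 := hz1
      have h4 : (p : ℝ) ^ (k - 1) < (p : ℝ) ^ (0 : ℤ) := by
        rw [zpow_sub₀ hp0.ne', zpow_one, zpow_zero, div_eq_mul_inv]
        exact h3
      have h5 : k - 1 < 0 := (zpow_lt_zpow_iff_right₀ hp1).mp h4
      have h6 : k ≤ 0 := by omega
      calc (p : ℝ) ^ k ≤ (p : ℝ) ^ (0 : ℤ) := (zpow_le_zpow_iff_right₀ hp1).mpr h6
        _ = 1 := zpow_zero _
    · simp only [if_neg hi]
      exact ⟨zero_mem _, by rw [nrm_zero]; exact zero_le_one⟩
  · rw [hzc]
    refine Finset.sum_congr rfl fun i hi => ?_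
    simp only [if_pos (Finset.mem_range.mp hi)]

end Fermat.Agent.S56.F.K

end
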