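/-
S56 / F / K / Biv : the two variable polynomial `C(Y, X) = X^d + ∑_{k<d} (∑_{i<n} c k i Y^i) X^k` used in the
transitivity of the different (K3).   Task S56/F-K-Biv.
-/
import Fermat.Agent.S56.F.K.OrthoB
import Fermat.Agent.S56.F.K.DerA
import Fermat.Agent.S56.F.K.UltraB

set_option autoImplicit false

noncomputable section

namespace Fermat.Agent.S56.F.K

open Fermat.Agent.S55.Places hiding Fix
open Fermat.Agent.S55.Places renaming Fix → Fx
open Polynomial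
open scoped IntermediateField

variable {p : ℕ} [Fact p.Prime]

/-- `C(y, X) = X^d + ∑_{k<d} (∑_{i<n} c k i y^i) X^k`. -/
def Cpoly (d n : ℕ) (c : ℕ → ℕ → Qbar) (y : Qbar) : Qbar[X] :=
  X ^ d + ∑ k ∈ Finset.range d, C (∑ i ∈ Finset.range n, c k i * y ^ i) * X ^ k

theorem Biv_degree_lt (d n : ℕ) (c : ℕ → ℕ → Qbar) (y : Qbar) :
    (∑ k ∈ Finset.range d, C (∑ i ∈ Finset.range n, c k i * y ^ i) * X ^ k : Qbar[X]).degree
      < (d : WithBot ℕ) := by
  refine (degree_sum_le _ _).trans_lt ((Finset.sup_lt_iff (WithBot.bot_lt_coe d)).2 fun k hk => ?_)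
  exact (degree_C_mul_X_pow_le k _).trans_lt (WithBot.coe_lt_coe.2 (Finset.mem_range.1 hk))

/-- `Polynomial.monic_X_pow_add` (the sum has degree `< d`: `degree_sum_fin_lt`-style /
`Polynomial.degree_sum_le` + `degree_C_mul_X_pow_le`). -/
theorem Cpoly_monic (d n : ℕ) (c : ℕ → ℕ → Qbar) (y : Qbar) : (Cpoly d n c y).Monic := by
  exact monic_X_pow_add (Biv_degree_lt d n c y)

theorem Cpoly_natDegree (d n : ℕ) (c : ℕ → ℕ → Qbar) (y : Qbar) :
    (Cpoly d n c y).natDegree = d := by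
  have h := Biv_degree_lt d n c y
  have h1 : (Cpoly d n c y).degree = (d : WithBot ℕ) := by
    rw [Cpoly, add_comm, degree_add_eq_right_of_degree_lt (by rw [degree_X_pow]; exact h),
      degree_X_pow]
  exact natDegree_eq_of_degree_eq_some h1

theorem Cpoly_eval (d n : ℕ) (c : ℕ → ℕ → Qbar) (y β : Qbar) :
    (Cpoly d n c y).eval β =
      β ^ d + ∑ k ∈ Finset.range d, (∑ i ∈ Finset.range n, c k i * y ^ i) * β ^ k := by
  simp only [Cpoly, eval_add, eval_pow, eval_X, eval_finsetSum, eval_mul, eval_C]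

/-- Galois equivariance (`Cpoly_eval`, `map_sum`, `map_mul`, `map_pow`, `mem_Fix_iff`). -/
theorem map_Cpoly_eval {W0 : Subgroup GQ} {d n : ℕ} {c : ℕ → ℕ → Qbar}
    (hc : ∀ k i, c k i ∈ Fx W0) {g : GQ} (hg : g ∈ W0) (y β : Qbar) :
    g ((Cpoly d n c y).eval β) = (Cpoly d n c (g y)).eval (g β) := by
  rw [Cpoly_eval, Cpoly_eval, map_add, map_pow, map_sum]
  congr 1
  refine Finset.sum_congr rfl (fun k _ => ?_)
  rw [map_mul, map_pow, map_sum]
  congr 1
  refine Finset.sum_congr rfl (fun i _ => ?_)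
  rw [map_mul, map_pow, mem_Fix_iff.1 (hc k i) g hg]

/-- Lipschitz in `y`.  PROOF: the difference is `∑_k (∑_i c k i (y'^i - y^i)) β^k`;
`|y'^i - y^i| ≤ |y' - y|` (e.g. `nrm_eval_sub_eval_le` for `X^i`, or for the polynomial
`∑_i C (c k i) X^i`); `nrm_sum_le`. -/
theorem nrm_Cpoly_eval_sub_le {d n : ℕ} {c : ℕ → ℕ → Qbar} (hc : ∀ k i, nrm p (c k i) ≤ 1)
    {y y' β : Qbar} (hy : nrm p y ≤ 1) (hy' : nrm p y' ≤ 1) (hβ : nrm p β ≤ 1) :
    nrm p ((Cpoly d n c y').eval β - (Cpoly d n c y).eval β) ≤ nrm p (y' - y) := by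
  have e : (Cpoly d n c y').eval β - (Cpoly d n c y).eval β
      = ∑ k ∈ Finset.range d, (∑ i ∈ Finset.range n, c k i * (y' ^ i - y ^ i)) * β ^ k := by
    rw [Cpoly_eval, Cpoly_eval, add_sub_add_left_eq_sub, ← Finset.sum_sub_distrib]
    refine Finset.sum_congr rfl (fun k _ => ?_)
    rw [← sub_mul, ← Finset.sum_sub_distrib]
    congr 1
    exact Finset.sum_congr rfl (fun i _ => by ring)
  rw [e]
  refine nrm_sum_le p _ _ _ (nrm_nonneg p _) (fun k _ => ?_)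
  rw [nrm_mul, nrm_pow]
  have h1 : nrm p (∑ i ∈ Finset.range n, c k i * (y' ^ i - y ^ i)) ≤ nrm p (y' - y) := by
    refine nrm_sum_le p _ _ _ (nrm_nonneg p _) (fun i _ => ?_)
    rw [← geom_sum₂_mul, nrm_mul, nrm_mul]
    calc nrm p (c k i) * (nrm p (∑ j ∈ Finset.range i, y' ^ j * y ^ (i - 1 - j)) * nrm p (y' - y))
        ≤ 1 * (1 * nrm p (y' - y)) :=
          mul_le_mul (hc k i) (mul_le_mul_of_nonneg_right (UltraB_geom_le_one hy' hy i)
            (nrm_nonneg p _)) (mul_nonneg (nrm_nonneg p _) (nrm_nonneg p _)) zero_le_one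
      _ = nrm p (y' - y) := by rw [one_mul, one_mul]
  calc nrm p (∑ i ∈ Finset.range n, c k i * (y' ^ i - y ^ i)) * nrm p β ^ k
      ≤ nrm p (y' - y) * 1 :=
        mul_le_mul h1 (pow_le_one₀ (nrm_nonneg p _) hβ) (pow_nonneg (nrm_nonneg p _) _)
          (nrm_nonneg p _)
    _ = nrm p (y' - y) := mul_one _

/-- the minimal polynomial of an integer `ϖ` over `Fix W1 = (Fix W0)(y)` is `C(y, X)` with integral
coefficients `c k i ∈ Fix W0`.  PROOF: `f = minpoly (Fix W1) ϖ` is monic (`ϖ` integral over any subfield: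
`Qbar` algebraic over `ℚ`), `f = X^d + ∑_{k<d} C (coeff k) X^k` (`Polynomial.Monic.as_sum`); each
`coeff k ∈ Fix W1` has norm `≤ 1` (`nrm_coeff_minpoly_le`); `exists_integral_expansion` + `choose`. -/
theorem exists_Cpoly {W0 W1 : Subgroup GQ} (hD : W1 ≤ Dq p) (hU : UnramNorm p W0)
    (h : IsOpenIn W0 W1) {y : Qbar} (hy1 : y ∈ Fx W1)
    (hy : nrm p y ^ (W1.subgroupOf W0).index = (p : ℝ)⁻¹) {ϖ : Qbar} (hϖ : nrm p ϖ ≤ 1) :
    ∃ c : ℕ → ℕ → Qbar, (∀ k i, c k i ∈ Fx W0 ∧ nrm p (c k i) ≤ 1) ∧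
      Cpoly (minpoly (Fx W1) ϖ).natDegree (W1.subgroupOf W0).index c y =
        (minpoly (Fx W1) ϖ).map (algebraMap (Fx W1) Qbar) := by
  have hAC := isAlgClosureQbar
  have hint : IsIntegral (Fx W1) ϖ :=
    ((Algebra.IsAlgebraic.isAlgebraic (R := ℚ) ϖ).isIntegral).tower_top
  have hmon : (minpoly (Fx W1) ϖ).Monic := minpoly.monic hint
  have hex : ∀ k : ℕ, ∃ c : ℕ → Qbar, (∀ i, c i ∈ Fx W0 ∧ nrm p (c i) ≤ 1) ∧
      (((minpoly (Fx W1) ϖ).coeff k : Fx W1) : Qbar)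
        = ∑ i ∈ Finset.range (W1.subgroupOf W0).index, c i * y ^ i := fun k =>
    exists_integral_expansion hU h hy1 hy ((minpoly (Fx W1) ϖ).coeff k).2
      (nrm_coeff_minpoly_le hD hϖ k)
  choose c hc hcs using hex
  refine ⟨c, hc, ?_⟩
  have hmon' := hmon.map (algebraMap (Fx W1) Qbar)
  conv_rhs => rw [hmon'.as_sum, hmon.natDegree_map]
  rw [Cpoly]
  congr 1
  refine Finset.sum_congr rfl (fun k _ => ?_)
  rw [← hcs k, coeff_map]
  rfl

end Fermat.Agent.S56.F.K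

end
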