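/-
S56 / F / K / TransA : (K3), first half: `∏_{y'} C(y', X) = ∏_{ϖ'} (X - ϖ')`.   Task S56/F-K-TransA.
Uses helper6's `Ram.orb` API (`S56/F/Ram/Orbit.lean`, sorry-free): `Ram.mem_orb`, `Ram.minpoly_map`.
-/
import Fermat.Agent.S56.F.K.Biv
import Fermat.Agent.S56.F.Ram.Orbit

set_option autoImplicit false

noncomputable section

namespace Fermat.Agent.S56.F.K

open Fermat.Agent.S55.Places hiding Fix
open Fermat.Agent.S55.Places renaming Fix → Fx
open Polynomial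
open scoped IntermediateField

variable {p : ℕ} [Fact p.Prime]

/-- take `natDegree` in `Ram.minpoly_map` (`natDegree_map_eq_of_injective`,
`natDegree_finsetProd_X_sub_C_eq_card`; see the first lines of the proof of `Ram.TotRam.card_orb`). -/
theorem card_orb_eq (D0 : Subgroup GQ) (ϖ : Qbar) :
    (Ram.orb D0 ϖ).card = (minpoly (Fx D0) ϖ).natDegree := by
  have h := congrArg natDegree (Ram.minpoly_map D0 ϖ)
  rw [natDegree_map, natDegree_finsetProd_X_sub_C_eq_card] at h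
  exact h.symm

/-- PROOF: LHS is monic of degree `#orb(y) * d` (`monic_prod_of_monic`, `natDegree_prod_of_monic`,
`Cpoly_monic`, `Cpoly_natDegree`).  Every `ϖ' = g ϖ ∈ orb D0 ϖ` (`Ram.mem_orb`) is a root of the factor
`C(g y, X)` (`map_Cpoly_eval`, `g y ∈ orb D0 y`), so RHS divides LHS
(`Finset.prod_X_sub_C_dvd`-style: `Multiset.prod_X_sub_C_dvd_iff_le_roots` +
`Multiset.le_iff_subset` for a nodup multiset, or `Polynomial.prod_multiset_X_sub_C_dvd`), RHS is monic of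
degree `#orb(ϖ) ≥ ` degree of LHS: `Polynomial.eq_of_monic_of_dvd_of_natDegree_le`. -/
theorem prod_Cpoly_eq {D0 : Subgroup GQ} {d n : ℕ} {c : ℕ → ℕ → Qbar}
    (hc : ∀ k i, c k i ∈ Fx D0) {y ϖ : Qbar} (hroot : (Cpoly d n c y).eval ϖ = 0)
    (hcard : (Ram.orb D0 y).card * d ≤ (Ram.orb D0 ϖ).card) :
    ∏ y' ∈ Ram.orb D0 y, Cpoly d n c y' = ∏ ϖ' ∈ Ram.orb D0 ϖ, (X - C ϖ') := by
  have hL : (∏ y' ∈ Ram.orb D0 y, Cpoly d n c y').Monic :=
    monic_prod_of_monic _ _ (fun y' _ => Cpoly_monic d n c y')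
  have hR : (∏ ϖ' ∈ Ram.orb D0 ϖ, (X - C ϖ')).Monic :=
    monic_prod_of_monic _ _ (fun a _ => monic_X_sub_C a)
  have hLdeg : (∏ y' ∈ Ram.orb D0 y, Cpoly d n c y').natDegree = (Ram.orb D0 y).card * d := by
    rw [natDegree_prod_of_monic _ _ (fun y' _ => Cpoly_monic d n c y')]
    simp only [Cpoly_natDegree, Finset.sum_const, smul_eq_mul]
  have hRdeg : (∏ ϖ' ∈ Ram.orb D0 ϖ, (X - C ϖ')).natDegree = (Ram.orb D0 ϖ).card :=
    natDegree_finsetProd_X_sub_C_eq_card _ (fun a => a)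
  have hdvd : (∏ ϖ' ∈ Ram.orb D0 ϖ, (X - C ϖ')) ∣ ∏ y' ∈ Ram.orb D0 y, Cpoly d n c y' := by
    have h1 : (∏ ϖ' ∈ Ram.orb D0 ϖ, (X - C ϖ'))
        = ((Ram.orb D0 ϖ).val.map fun a => X - C a).prod := rfl
    rw [h1, Multiset.prod_X_sub_C_dvd_iff_le_roots hL.ne_zero,
      Multiset.le_iff_subset (Ram.orb D0 ϖ).nodup]
    intro a ha
    rw [mem_roots hL.ne_zero, IsRoot.def, eval_prod]
    obtain ⟨g, hg, rfl⟩ := (Ram.mem_orb D0 ϖ a).1 ha
    refine Finset.prod_eq_zero ((Ram.mem_orb D0 y (g y)).2 ⟨g, hg, rfl⟩) ?_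
    rw [← map_Cpoly_eval hc hg, hroot, map_zero]
  exact eq_of_monic_of_dvd_of_natDegree_le hR hL hdvd (by rw [hLdeg, hRdeg]; exact hcard)

end Fermat.Agent.S56.F.K

end
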