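/-
S56 / F / K / TransB : (K3) transitivity of the different, easy half (Serre, Local Fields IV.1 Prop. 3):
`DM ≤ WN ≤ D0`, `y`, `ϖ` uniformisers of `Fix WN`, `Fix DM`, both totally ramified over the unramified
`Fix D0`.  Then `|F'(ϖ)| ≤ |G'(y)|`.     Task S56/F-K-TransB.
-/
import Fermat.Agent.S56.F.K.TransA
import Fermat.Agent.S56.F.K.IndexA

set_option autoImplicit false

noncomputable section

namespace Fermat.Agent.S56.F.K

open Fermat.Agent.S55.Places hiding Fix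
open Fermat.Agent.S55.Places renaming Fix → Fx
open Polynomial
open scoped IntermediateField

variable {p : ℕ} [Fact p.Prime]

/-- helper: a number one of whose powers is `1/p` is integral. -/
theorem TransB_nrm_le_one {x : Qbar} {n : ℕ} (h : nrm p x ^ n = (p : ℝ)⁻¹) : nrm p x ≤ 1 := by
  have hp1 : (1 : ℝ) < p := by exact_mod_cast (Fact.out : p.Prime).one_lt
  by_contra hcon
  rw [not_le] at hcon
  have h1 : 1 ≤ nrm p x ^ n := one_le_pow₀ hcon.le
  rw [h] at h1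
  have h2 : (p : ℝ)⁻¹ < 1 := inv_lt_one_of_one_lt₀ hp1
  linarith

/-- PROOF.  `n = [D0:WN]`, `f = minpoly (Fix WN) ϖ`, `d = natDegree f ≤ [WN:DM]`
(`natDegree_minpoly_le_idx`).  `|y|, |ϖ| ≤ 1` (a power is `1/p < 1`; the indices are `≠ 0`).
`exists_Cpoly` gives `c` with `C(y, X) = f.map`; so `C(y, ϖ) = 0`.
Degrees: `#orb(y) = natDegree G ≤ n` (`card_orb_eq`, `natDegree_minpoly_le_idx`), `n * [WN:DM] = [D0:DM]`
(`idx_mul`), `[D0:DM] ≤ natDegree F = #orb(ϖ)` (`le_natDegree_minpoly`).  So `prod_Cpoly_eq` applies: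
`F.map = ∏_{ϖ'} (X - ϖ') = C(y,X) * Q`, `Q = ∏_{y' ∈ orb.erase y} C(y', X)` (`Ram.minpoly_map`,
`Finset.mul_prod_erase`, `Ram.self_mem_orb`).  Differentiate and evaluate at `ϖ`:
`F'(ϖ) = f'(ϖ) * Q(ϖ)` (`derivative_mul`, `derivative_map`, `eval_map_algebraMap`, `C(y,ϖ) = 0`).
`|f'(ϖ)| ≤ 1` (`nrm_eval_le_one`: the coefficients of `derivative (f.map)` are `(k+1) * coeff`, integral by
`nrm_coeff_minpoly_le`, `nrm_natCast_le_one`).  For `y' ∈ orb.erase y`: `|y'| = |y| ≤ 1`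
(`Ram.mem_orb`, `nrm_map_of_mem_Dq`) and `|C(y',ϖ)| = |C(y',ϖ) - C(y,ϖ)| ≤ |y' - y|`
(`nrm_Cpoly_eval_sub_le`).  Finally `G'(y) = ∏_{y' ∈ orb.erase y} (y - y')` (`Ram.aeval_derivative`),
`nrm_prod`, `Finset.prod_le_prod`, `eval_prod`. -/
theorem nrm_derivative_le_of_tower {D0 WN DM : Subgroup GQ} (hD0 : D0 ≤ Dq p)
    (hU : UnramNorm p D0) (h1 : IsOpenIn D0 WN) (h2 : IsOpenIn WN DM) {y ϖ : Qbar}
    (hy : y ∈ Fx WN) (hyn : nrm p y ^ (WN.subgroupOf D0).index = (p : ℝ)⁻¹) (hϖ : ϖ ∈ Fx DM)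
    (hϖn : nrm p ϖ ^ (DM.subgroupOf D0).index = (p : ℝ)⁻¹) :
    nrm p (aeval ϖ (derivative (minpoly (Fx D0) ϖ))) ≤
      nrm p (aeval y (derivative (minpoly (Fx D0) y))) := by
  classical
  have hy1 : nrm p y ≤ 1 := TransB_nrm_le_one hyn
  have hϖ1 : nrm p ϖ ≤ 1 := TransB_nrm_le_one hϖn
  have hWN : WN ≤ Dq p := h1.1.trans hD0
  obtain ⟨c, hc, hC⟩ := exists_Cpoly hWN hU h1 hy hyn hϖ1
  set d := (minpoly (Fx WN) ϖ).natDegree with hd
  set n := (WN.subgroupOf D0).index with hn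
  have hroot : (Cpoly d n c y).eval ϖ = 0 := by
    rw [hC, eval_map_algebraMap, minpoly.aeval]
  have hcard : (Ram.orb D0 y).card * d ≤ (Ram.orb D0 ϖ).card := by
    have e1 : (Ram.orb D0 y).card ≤ n := by
      rw [card_orb_eq]
      exact natDegree_minpoly_le_idx h1 hy
    have e2 : d ≤ (DM.subgroupOf WN).index := natDegree_minpoly_le_idx h2 hϖ
    have e3 : (DM.subgroupOf D0).index ≤ (Ram.orb D0 ϖ).card := by
      rw [card_orb_eq]
      exact le_natDegree_minpoly hU hϖn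
    calc (Ram.orb D0 y).card * d ≤ n * (DM.subgroupOf WN).index := Nat.mul_le_mul e1 e2
      _ = (DM.subgroupOf D0).index := idx_mul h1.1 h2.1
      _ ≤ _ := e3
  have hprod := prod_Cpoly_eq (fun k i => (hc k i).1) hroot hcard
  set Q : Qbar[X] := ∏ y' ∈ (Ram.orb D0 y).erase y, Cpoly d n c y' with hQ
  have hF : (minpoly (Fx D0) ϖ).map (algebraMap (Fx D0) Qbar) = Cpoly d n c y * Q := by
    rw [Ram.minpoly_map, ← hprod, hQ, Finset.mul_prod_erase _ _ (Ram.self_mem_orb D0 y)]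
  have hder : aeval ϖ (derivative (minpoly (Fx D0) ϖ)) =
      (derivative (Cpoly d n c y)).eval ϖ * Q.eval ϖ := by
    rw [← eval_map_algebraMap, ← derivative_map, hF, derivative_mul, eval_add, eval_mul, eval_mul,
      hroot, zero_mul, add_zero]
  have hder1 : nrm p ((derivative (Cpoly d n c y)).eval ϖ) ≤ 1 := by
    refine nrm_eval_le_one _ (fun i => ?_) hϖ1
    rw [hC, coeff_derivative, coeff_map, nrm_mul]
    refine mul_le_one₀ (nrm_coeff_minpoly_le hWN hϖ1 (i + 1)) (nrm_nonneg p _) ?_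
    have := nrm_natCast_le_one p (i + 1)
    push_cast at this
    exact this
  rw [hder, Ram.aeval_derivative, nrm_mul, hQ, eval_prod, nrm_prod, nrm_prod]
  calc nrm p ((derivative (Cpoly d n c y)).eval ϖ) *
        ∏ y' ∈ (Ram.orb D0 y).erase y, nrm p ((Cpoly d n c y').eval ϖ)
      ≤ 1 * ∏ y' ∈ (Ram.orb D0 y).erase y, nrm p (y - y') := by
        refine mul_le_mul hder1 ?_ (Finset.prod_nonneg fun _ _ => nrm_nonneg p _) zero_le_one
        refine Finset.prod_le_prod (fun _ _ => nrm_nonneg p _) fun y' hy' => ?_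
        obtain ⟨g, hg, rfl⟩ := (Ram.mem_orb D0 y y').1 (Finset.mem_of_mem_erase hy')
        have hgy : nrm p (g y) ≤ 1 := by rw [nrm_map_of_mem_Dq p (hD0 hg)]; exact hy1
        have := nrm_Cpoly_eval_sub_le (d := d) (n := n) (fun k i => (hc k i).2) hy1 hgy hϖ1
        rwa [hroot, sub_zero, nrm_sub_comm] at this
    _ = _ := one_mul _

end Fermat.Agent.S56.F.K

end
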