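/-
S56 / F / K / Main : (K-main) a Kummer generator of level `j ≤ p+1`, `p ∤ j`, over `K^nr(π)` cannot become a
`p`-th power in the field cut out by a subgroup `N` satisfying the ramification bound.   (helper53)
-/
import Fermat.Agent.S56.F.K.Setup
import Fermat.Agent.S56.F.K.KumC
import Fermat.Agent.S56.F.K.TransB
import Fermat.Agent.S56.F.K.TotRamC
import Fermat.Agent.S56.F.K.Num

set_option autoImplicit false

noncomputable section

namespace Fermat.Agent.S56.F.K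

open Fermat.Agent.S55.Places hiding Fix
open Fermat.Agent.S55.Places renaming Fix → Fx
open Polynomial
open scoped IntermediateField

variable {p : ℕ} [Fact p.Prime]

/-- **(K-main)**. -/
theorem main (hp2 : p ≠ 2) {N : Subgroup GQ} (hR : RamBound p N)
    (hN : IsOpenIn (Dq p) (Dq p ⊓ N)) {π α : Qbar} (hπ : π ^ (p ^ 2 - 1) = -(p : Qbar))
    (fixπ : ∀ s ∈ Iq p, s ∈ N → s π = π) (fixα : ∀ s ∈ Iq p, s ∈ N → s α = α)
    (fixx : ∀ s ∈ Iq p, s π = π → s (α ^ p) = α ^ p) {j : ℕ} (hj0 : 0 < j) (hjp : ¬ p ∣ j)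
    (hj : j ≤ p + 1) : nrm p (α ^ p - 1) ≠ nrm p π ^ j := by
  intro hlev
  have hp : p.Prime := Fact.out
  have hp3 : 3 ≤ p := by
    have := hp.two_le
    omega
  have hj' : j < p ^ 2 + p := by nlinarith
  obtain ⟨a, b, hab⟩ := exists_ab hp hjp
  set D := D0 p N π α with hD
  set DM := N1 p N π α with hDM
  set WN := Stb (Stb D π) α with hWN
  have hDle : D ≤ Dq p := D0_le_Dq
  have hU : UnramNorm p D := unramNorm_of_Iq_le Iq_le_D0
  have hx : α ^ p ∈ Fx (Stb D π) := pow_mem_Fix fixx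
  set y := (α - 1) ^ a / π ^ b with hy
  -- the uniformiser of `Fix DM`
  obtain ⟨ϖ, hϖ, hϖ0, hϖ1, hunif⟩ := exists_uniformizer (isOpenIn_N1 (π := π) (α := α) hN)
  have hϖne : ϖ ≠ 0 := (nrm_pos_iff p).1 hϖ0
  have hbound := hR D DM (isOpenIn_D0 hN) Iq_le_D0 (mem_N1_iff fixπ fixα) D0_tot ϖ hϖ hϖne hϖ1
    hunif
  have hϖn : nrm p ϖ ^ (DM.subgroupOf D).index = (p : ℝ)⁻¹ :=
    nrm_uniformizer_pow (isOpenIn_D0 hN) Iq_le_D0 (isOpenIn_D0_N1 hN) D0_tot hϖ hϖne hϖ1 hunif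
  -- the Kummer field
  have hidx := (idx_eq hDle hU hπ hj0 hj' hlev hab hx).1
  have hyn : nrm p y ^ (WN.subgroupOf D).index = (p : ℝ)⁻¹ := by
    rw [hidx]
    exact nrm_unif_pow' hπ hj0 hj' hlev hab
  have htower := nrm_derivative_le_of_tower hDle hU isOpenIn_D0_WN (isOpenIn_WN_N1 hN)
    (unif_mem_Fix D π α a b) hyn hϖ hϖn
  have hkum := nrm_derivative_kummer_le hDle hU hπ hj0 hj' hlev hab hx
  -- numerics
  set ρ := nrm p y with hρ
  have hρn : ρ ^ (p * (p ^ 2 - 1)) = (p : ℝ)⁻¹ := nrm_unif_pow' hπ hj0 hj' hlev hab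
  have hρ0 : 0 ≤ ρ := nrm_nonneg p y
  have hpinv : (p : ℝ)⁻¹ < 1 := inv_lt_one_of_one_lt₀ (by exact_mod_cast hp.one_lt)
  have hpinv0 : (0 : ℝ) < (p : ℝ)⁻¹ := inv_pos.2 (by exact_mod_cast hp.pos)
  have hn0 : p * (p ^ 2 - 1) ≠ 0 := by
    have : 1 < p ^ 2 := by nlinarith
    have h1 : 0 < p ^ 2 - 1 := by omega
    exact (Nat.mul_pos hp.pos h1).ne'
  have hρpos : 0 < ρ := by
    rcases hρ0.eq_or_lt with h | h
    · rw [← h, zero_pow hn0] at hρn
      exact absurd hρn hpinv0.ne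
    · exact h
  have hρ1 : ρ < 1 := by
    by_contra hcon
    have : 1 ≤ ρ ^ (p * (p ^ 2 - 1)) := one_le_pow₀ (not_lt.1 hcon)
    rw [hρn] at this
    exact absurd this (not_le.2 hpinv)
  have h1 : nrm p (p : Qbar) ^ p = ρ ^ (p * (p ^ 2 - 1) * p) := by
    rw [nrm_natCast_self, ← hρn, ← pow_mul]
  have h2 : nrm p (aeval ϖ (derivative (minpoly (Fx D) ϖ))) ^ (p - 1) ≤
      ρ ^ ((p - 1) * ((p - 1) * (p ^ 2 + p + 1 - j) + (p * (p ^ 2 - 1) - p))) := by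
    rw [mul_comm (p - 1), pow_mul]
    exact pow_le_pow_left₀ (nrm_nonneg p _) (htower.trans hkum) _
  have h3 : ρ ^ (p * (p ^ 2 - 1) * p) ≤
      ρ ^ ((p - 1) * ((p - 1) * (p ^ 2 + p + 1 - j) + (p * (p ^ 2 - 1) - p))) := by
    rw [← h1]
    exact hbound.trans h2
  have h4 := (pow_le_pow_iff_right_of_lt_one₀ hρpos hρ1).1 h3
  exact absurd (num hp3 hj) (not_lt.2 h4)

end Fermat.Agent.S56.F.K

end
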