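/-
S56 / F / K / Export : (K-main) for the points of an order, and helper55's `C.NoLevel`.     (helper53)
-/
import Fermat.Agent.S56.F.K.Main
import Fermat.Agent.S56.F.Ram.Main
import Fermat.Agent.S56.F.Irr.SetupA

set_option autoImplicit false

noncomputable section

namespace Fermat.Agent.S56.F.K

open Fermat.Agent.S55.Places hiding Fix
open Fermat.Agent.S55.Places renaming Fix → Fx
open Polynomial
open scoped IntermediateField

variable {p : ℕ} [Fact p.Prime]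

section ord

variable {R : Subring Qbar} {Γ : Subgroup GQ} {E : Type} [AddCommGroup E] {act : GQ → E → E}
  {H : Subalgebra R (E → Qbar)}

/-- the kernel of the action of `Γ` on the points of an order. -/
def kerAct (h : Ord R Γ act H) : Subgroup GQ where
  carrier := {g | g ∈ Γ ∧ ∀ x, act g x = x}
  mul_mem' := by
    rintro a b ⟨ha, ha'⟩ ⟨hb, hb'⟩
    exact ⟨mul_mem ha hb, fun x => by rw [h.act_mul ha hb, hb', ha']⟩
  one_mem' := ⟨one_mem _, h.act_one⟩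
  inv_mem' := by
    rintro a ⟨ha, ha'⟩
    refine ⟨inv_mem ha, fun x => ?_⟩
    have h1 := h.act_inv_act ha x
    rwa [ha'] at h1

theorem mem_kerAct (h : Ord R Γ act H) {g : GQ} :
    g ∈ kerAct h ↔ g ∈ Γ ∧ ∀ x, act g x = x := Iff.rfl

theorem ramBound_kerAct [Finite E] (hR : ∀ r ∈ R, nrm p r ≤ 1) (h : Ord R Γ act H)
    (hΓ : Dq p ≤ Γ) (hpE : ∀ x : E, p • x = 0) : RamBound p (kerAct h) := by
  intro D0 DM hD0 hI hDM htot ϖ hϖ hϖ0 hϖ1 hunif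
  exact Ram.ram_bound hR h (hD0.1.trans hΓ) hpE hD0 hI
    (fun g => (hDM g).trans ⟨fun hg => ⟨hg.1, hg.2.2⟩, fun hg => ⟨hg.1, hΓ (hD0.1 hg.1), hg.2⟩⟩)
    htot hϖ hϖ0 hϖ1 hunif

theorem isOpenIn_kerAct [Finite E] (h : Ord R Γ act H) (hΓ : Dq p ≤ Γ) :
    IsOpenIn (Dq p) (Dq p ⊓ kerAct h) :=
  Ram.isOpenIn_ker h hΓ (fun g => by
    rw [Subgroup.mem_inf, mem_kerAct]
    exact ⟨fun hg => ⟨hg.1, hg.2.2⟩, fun hg => ⟨hg.1, hΓ hg.1, hg.2⟩⟩)

/-- **(K-main)** for the points of an order killed by `p`. -/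
theorem main_ord (hp2 : p ≠ 2) [Finite E] (hR : ∀ r ∈ R, nrm p r ≤ 1) (h : Ord R Γ act H)
    (hΓ : Dq p ≤ Γ) (hpE : ∀ x : E, p • x = 0) {π α : Qbar}
    (hπ : π ^ (p ^ 2 - 1) = -(p : Qbar))
    (fixπ : ∀ s ∈ Iq p, (∀ x, act s x = x) → s π = π)
    (fixα : ∀ s ∈ Iq p, (∀ x, act s x = x) → s α = α)
    (fixx : ∀ s ∈ Iq p, s π = π → s (α ^ p) = α ^ p) {j : ℕ} (hj0 : 0 < j) (hjp : ¬ p ∣ j)
    (hj : j ≤ p + 1) : nrm p (α ^ p - 1) ≠ nrm p π ^ j :=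
  main hp2 (ramBound_kerAct hR h hΓ hpE) (isOpenIn_kerAct h hΓ) hπ
    (fun s hs hsN => fixπ s hs hsN.2) (fun s hs hsN => fixα s hs hsN.2) fixx hj0 hjp hj

end ord

section noLevel

variable {k : Type} [Field k] [Algebra (ZMod p) k]

/-- an element acting trivially on `E = k[ε]²` has `M s = 1`, `z s = 0`. -/
theorem eq_one_of_defAct {M : GQ →* M2 k} {z : GQ → M2 k} {s : GQ}
    (hs : ∀ x : EE k, defAct M z s x = x) : M s = 1 ∧ z s = 0 := by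
  have h1 : M s = 1 := by
    apply Matrix.mulVec_injective
    funext v
    have h := congrArg Prod.fst (hs (v, 0))
    rw [Matrix.one_mulVec]
    exact h
  refine ⟨h1, ?_⟩
  apply Matrix.mulVec_injective
  funext v
  have h := congrArg Prod.snd (hs (v, 0))
  have h' : (M s).mulVec (0 : Fin 2 → k) + (z s * M s).mulVec v = 0 := h
  rw [Matrix.mulVec_zero, zero_add, h1, mul_one] at h'
  rw [h', Matrix.zero_mulVec]

/-- `M τ = 1`, `τ ∈ I` ⟹ `τ ϖ = ϖ`: apply `Ann` to `P = ∑_{i < p^2-1} X^i`: if `ξ = τ ϖ/ϖ ≠ 1` then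
`P(ξ) = (ξ^(p^2-1) - 1)/(ξ - 1) = 0` (`ξ^(p^2-1) = τ(-p)/(-p) = 1`, `mul_geom_sum`), so
`0 = P(M τ) = P(1) = (p^2-1) • 1 = -1` in `M2 k` (`k` has characteristic `p`). -/
theorem fix_of_M_eq_one {M : GQ →* M2 k} {ϖ : Qbar} (hϖ : ϖ ^ (p ^ 2 - 1) = -(p : Qbar))
    (hA : Irr.Ann p M ϖ) {τ : GQ} (hτ : τ ∈ Iq p) (hM : M τ = 1) : τ ϖ = ϖ := by
  have hp : p.Prime := Fact.out
  have hchar : CharP k p := charP_of_injective_algebraMap (algebraMap (ZMod p) k).injective p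
  have hpQ : (p : Qbar) ≠ 0 := by exact_mod_cast hp.ne_zero
  have hn0 : p ^ 2 - 1 ≠ 0 := by
    have : 2 ≤ p := hp.two_le
    have h4 : 4 ≤ p ^ 2 := by nlinarith
    omega
  have hϖ0 : ϖ ≠ 0 := by
    rintro rfl
    rw [zero_pow hn0] at hϖ
    exact hpQ (neg_eq_zero.1 hϖ.symm)
  by_contra hne
  have hξ1 : τ ϖ / ϖ ≠ 1 := fun h => hne ((div_eq_one_iff_eq hϖ0).1 h)
  have hξn : (τ ϖ / ϖ) ^ (p ^ 2 - 1) = 1 := by
    rw [div_pow, ← map_pow, hϖ, map_neg, map_natCast, div_self (neg_ne_zero.2 hpQ)]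
  have hsum : ∑ i ∈ Finset.range (p ^ 2 - 1), (τ ϖ / ϖ) ^ i = 0 := by
    have h := geom_sum_mul (τ ϖ / ϖ) (p ^ 2 - 1)
    rw [hξn, sub_self] at h
    exact (mul_eq_zero.1 h).resolve_right (sub_ne_zero.2 hξ1)
  have h1 := hA τ hτ (∑ i ∈ Finset.range (p ^ 2 - 1), (X : ℤ[X]) ^ i) (by
    rw [map_sum]
    simp only [map_pow, aeval_X]
    rw [hsum, nrm_zero]
    exact zero_lt_one)
  rw [map_sum, hM] at h1
  simp only [map_pow, aeval_X, one_pow, Finset.sum_const, Finset.card_range] at h1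
  have h2 := congrFun (congrFun h1 0) 0
  rw [Matrix.smul_apply, Matrix.one_apply_eq, Matrix.zero_apply, nsmul_eq_mul, mul_one] at h2
  have h3 : ((p ^ 2 - 1 : ℕ) : k) + 1 = 0 := by
    have h4 : p ^ 2 - 1 + 1 = p ^ 2 := by omega
    have h5 : ((p ^ 2 - 1 + 1 : ℕ) : k) = 0 := by
      rw [h4, Nat.cast_pow, CharP.cast_eq_zero, zero_pow two_ne_zero]
    rwa [Nat.cast_add, Nat.cast_one] at h5
  rw [h2, zero_add] at h3
  exact one_ne_zero h3

/-- **EXPORT to block C.** -/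
theorem noLevel (hp2 : p ≠ 2) [Finite k] {M : GQ →* M2 k} {z : GQ → Ad0 p k} {R : Subring Qbar}
    {Γ : Subgroup GQ} {H : Subalgebra R (EE k → Qbar)} (hR : ∀ r ∈ R, nrm p r ≤ 1)
    (h : Ord R Γ (defAct M fun σ => (z σ : M2 k)) H) (hΓ : Dq p ≤ Γ) {ϖ : Qbar}
    (hϖ : ϖ ^ (p ^ 2 - 1) = -(p : Qbar)) (hA : Irr.Ann p M ϖ) {j : ℕ} (hj0 : 0 < j)
    (hjp : ¬ p ∣ j) (hj : j ≤ p + 1) : C.NoLevel ϖ z j := by
  intro B x y hx hy hchar
  subst hy
  have hpE : ∀ v : EE k, p • v = 0 := by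
    intro v
    have hchar : CharP k p := charP_of_injective_algebraMap (algebraMap (ZMod p) k).injective p
    apply Prod.ext <;> funext i <;>
      simp [nsmul_eq_mul, CharP.cast_eq_zero]
  refine main_ord hp2 hR h hΓ hpE hϖ ?_ ?_ ?_ hj0 hjp hj
  · intro s hs hact
    exact fix_of_M_eq_one hϖ hA hs (eq_one_of_defAct hact).1
  · intro s hs hact
    obtain ⟨h1, h2⟩ := eq_one_of_defAct hact
    have hsL : s ∈ C.IL p ϖ := C.mem_IL.2 ⟨hs, fix_of_M_eq_one hϖ hA hs h1⟩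
    have h3 : z s = 0 := Subtype.ext h2
    have h4 := hchar s hsL
    rw [C.chi, h3, map_zero] at h4
    simpa using h4
  · intro s hs hsϖ
    exact C.mem_FL.1 hx s (C.mem_IL.2 ⟨hs, hsϖ⟩)

end noLevel

end Fermat.Agent.S56.F.K

end
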